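import Mathlib

/-!
# Program V (S27), leaf A7 : THE GROUP THEORY (prefix `v27g`)

`T` an `l`-primary abelian group with an endomorphism `φ` ("Frobenius") such that
* every element is fixed by some `φ ^ m`, `m > 0` (`T = ⋃ T_m`, `T_m := ker (φ ^ m - 1)`);
* `|T_{M₀ m' l^s}| = l ^ (c₀ + d s)` for `l ∤ m'` (the LTE form of `|T_m| = l`-part of `h_m`);
* the norms `N = ∑_{i < n} φ ^ (m i) : T_{m n} → T_m` are onto.

Then `|T[l ^ k]| = l ^ (d k)` for every `k` (`v27g_card_torsion`).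

Proof.  Fix `k`.  `T_m[l ^ (k+1)]` embeds into the kernel of the norm `T_{m l^(k+1)} → T_m` (the norm is
`l ^ (k+1)` on `T_m`), so it has at most `l ^ (d (k+1))` elements; choosing `m` with
`|T_m[l ^ (k+1)]|` maximal gives `T[l ^ (k+1)] ⊆ T_m`.  For this `m` the kernel of the norm
`T_{m l^k} → T_m` is exactly `T[l ^ k]` : if `N x = 0` and `j > k` is minimal with `l ^ j x = 0`, then
`y = l ^ (j - k - 1) x ∈ T[l ^ (k+1)]` is fixed by `φ ^ m`, so `0 = l ^ (j-k-1) N x = l ^ k y = l ^ (j-1) x`,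
a contradiction.  Count.
-/

set_option autoImplicit false
set_option linter.unusedSectionVars false
set_option linter.unusedVariables false
set_option linter.style.haveILetI false

namespace Fermat.Agent.V

open Finset

variable {T : Type*} [AddCommGroup T]

/-- the fixed points of `φ ^ m` -/
def v27gFix (φ : AddMonoid.End T) (m : ℕ) : AddSubgroup T where
  carrier := {x | (φ ^ m) x = x}
  zero_mem' := map_zero _
  add_mem' := by
    intro a b ha hb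
    show (φ ^ m) (a + b) = a + b
    rw [map_add, ha, hb]
  neg_mem' := by
    intro a ha
    show (φ ^ m) (-a) = -a
    rw [map_neg, ha]

theorem v27g_mem_fix {φ : AddMonoid.End T} {m : ℕ} {x : T} :
    x ∈ v27gFix φ m ↔ (φ ^ m) x = x := Iff.rfl

/-- the `n`-torsion -/
def v27gTor (T : Type*) [AddCommGroup T] (n : ℕ) : AddSubgroup T where
  carrier := {x | n • x = 0}
  zero_mem' := smul_zero _
  add_mem' := by
    intro a b ha hb
    show n • (a + b) = 0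
    rw [smul_add, ha, hb, add_zero]
  neg_mem' := by
    intro a ha
    show n • (-a) = 0
    rw [smul_neg, ha, neg_zero]

theorem v27g_mem_tor {n : ℕ} {x : T} : x ∈ v27gTor T n ↔ n • x = 0 := Iff.rfl

/-- the norm `∑_{i < n} φ ^ (m i)` -/
def v27gNorm (φ : AddMonoid.End T) (m n : ℕ) : T →+ T :=
  ∑ i ∈ range n, (φ ^ (m * i) : AddMonoid.End T)

theorem v27g_norm_apply (φ : AddMonoid.End T) (m n : ℕ) (x : T) :
    v27gNorm φ m n x = ∑ i ∈ range n, (φ ^ (m * i)) x := by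
  unfold v27gNorm
  exact AddMonoidHom.finsetSum_apply _ _ _

theorem v27g_pow_mul_apply (φ : AddMonoid.End T) (m i : ℕ) (x : T) (hx : (φ ^ m) x = x) :
    (φ ^ (m * i)) x = x := by
  induction i with
  | zero => simp
  | succ i ih =>
    rw [Nat.mul_succ, pow_add]
    show (φ ^ (m * i)) ((φ ^ m) x) = x
    rw [hx, ih]

theorem v27g_fix_le_mul (φ : AddMonoid.End T) (m n : ℕ) : v27gFix φ m ≤ v27gFix φ (m * n) :=
  fun x hx => v27g_pow_mul_apply φ m n x hx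

theorem v27g_fix_le_mul' (φ : AddMonoid.End T) (m n : ℕ) : v27gFix φ n ≤ v27gFix φ (m * n) := by
  rw [mul_comm]
  exact v27g_fix_le_mul φ n m

/-- on the fixed points of `φ ^ m` the norm is multiplication by `n` -/
theorem v27g_norm_of_fix (φ : AddMonoid.End T) (m n : ℕ) (x : T) (hx : (φ ^ m) x = x) :
    v27gNorm φ m n x = n • x := by
  rw [v27g_norm_apply]
  rw [Finset.sum_congr rfl (fun i _ => v27g_pow_mul_apply φ m i x hx)]
  simp

/-- the norm maps `T_{m n}` into `T_m` -/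
theorem v27g_norm_mem_fix (φ : AddMonoid.End T) (m n : ℕ) (x : T) (hx : (φ ^ (m * n)) x = x) :
    (φ ^ m) (v27gNorm φ m n x) = v27gNorm φ m n x := by
  rw [v27g_norm_apply, map_sum]
  have h1 : ∀ i, (φ ^ m) ((φ ^ (m * i)) x) = (φ ^ (m * (i + 1))) x := by
    intro i
    rw [Nat.mul_succ, add_comm (m * i) m, pow_add]
    rfl
  rw [Finset.sum_congr rfl (fun i _ => h1 i)]
  have h2 := Finset.sum_range_succ' (fun i => (φ ^ (m * i)) x) n
  have h3 := Finset.sum_range_succ (fun i => (φ ^ (m * i)) x) n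
  rw [h3] at h2
  simp only [Nat.mul_zero, pow_zero] at h2
  rw [hx] at h2
  have h4 : (1 : AddMonoid.End T) x = x := rfl
  rw [h4] at h2
  exact (add_right_cancel h2).symm

/-- the norm as a map `T_{m n} → T` -/
def v27gNormRes (φ : AddMonoid.End T) (m n : ℕ) : ↥(v27gFix φ (m * n)) →+ T :=
  (v27gNorm φ m n).comp (v27gFix φ (m * n)).subtype

theorem v27g_normRes_range (φ : AddMonoid.End T) (m n : ℕ)
    (hnorm : ∀ y : T, (φ ^ m) y = y → ∃ x : T, (φ ^ (m * n)) x = x ∧ v27gNorm φ m n x = y) :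
    (v27gNormRes φ m n).range = v27gFix φ m := by
  ext y
  constructor
  · rintro ⟨⟨x, hx⟩, rfl⟩
    exact v27g_norm_mem_fix φ m n x hx
  · intro hy
    obtain ⟨x, hx, hxy⟩ := hnorm y hy
    exact ⟨⟨x, hx⟩, hxy⟩

/-- counting along the norm : `|T_{m n}| = |ker N| · |T_m|` -/
theorem v27g_card_norm (φ : AddMonoid.End T) (m n : ℕ)
    (hnorm : ∀ y : T, (φ ^ m) y = y → ∃ x : T, (φ ^ (m * n)) x = x ∧ v27gNorm φ m n x = y) :
    Nat.card ↥(v27gNormRes φ m n).ker * Nat.card ↥(v27gFix φ m) =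
      Nat.card ↥(v27gFix φ (m * n)) := by
  have h := AddSubgroup.card_mul_index (v27gNormRes φ m n).ker
  rw [AddSubgroup.index_ker, v27g_normRes_range φ m n hnorm] at h
  exact h

section Main

variable (l : ℕ) [hl : Fact l.Prime] (φ : AddMonoid.End T) (d M₀ : ℕ)

/-- the kernel of the norm `T_{m l^j} → T_m` has `l ^ (d j)` elements -/
theorem v27g_card_ker (hM₀ : 0 < M₀)
    (hcard : ∀ m : ℕ, 0 < m → M₀ ∣ m →
      ∃ e : ℕ, ∀ j : ℕ, Nat.card ↥(v27gFix φ (m * l ^ j)) = l ^ (e + d * j))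
    (hnorm : ∀ m n : ℕ, 0 < m → 0 < n → ∀ y : T, (φ ^ m) y = y →
      ∃ x : T, (φ ^ (m * n)) x = x ∧ v27gNorm φ m n x = y)
    (m : ℕ) (hm : 0 < m) (hMm : M₀ ∣ m) (j : ℕ) :
    Nat.card ↥(v27gNormRes φ m (l ^ j)).ker = l ^ (d * j) := by
  have hlp : l.Prime := hl.out
  have hlj : 0 < l ^ j := pow_pos hlp.pos j
  have h1 := v27g_card_norm φ m (l ^ j) (hnorm m (l ^ j) hm hlj)
  obtain ⟨e, he⟩ := hcard m hm hMm
  have he0 := he 0
  rw [pow_zero, mul_one, mul_zero, add_zero] at he0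
  rw [he0, he j] at h1
  have h2 : l ^ (e + d * j) = l ^ (d * j) * l ^ e := by
    rw [← pow_add]
    congr 1
    ring
  rw [h2] at h1
  exact Nat.eq_of_mul_eq_mul_right (pow_pos hlp.pos _) h1

/-- `T_m` is finite for `M₀ ∣ m` -/
theorem v27g_finite_fix
    (hcard : ∀ m : ℕ, 0 < m → M₀ ∣ m →
      ∃ e : ℕ, ∀ j : ℕ, Nat.card ↥(v27gFix φ (m * l ^ j)) = l ^ (e + d * j))
    (m : ℕ) (hm : 0 < m) (hMm : M₀ ∣ m) : Finite ↥(v27gFix φ m) := by
  apply Nat.finite_of_card_ne_zero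
  obtain ⟨e, he⟩ := hcard m hm hMm
  have he0 := he 0
  rw [pow_zero, mul_one, mul_zero, add_zero] at he0
  rw [he0]
  exact (pow_pos hl.out.pos _).ne'

/-- **upper bound** : `|T_m[l ^ j]| ≤ l ^ (d j)` -/
theorem v27g_card_fix_tor_le (hM₀ : 0 < M₀)
    (hcard : ∀ m : ℕ, 0 < m → M₀ ∣ m →
      ∃ e : ℕ, ∀ j : ℕ, Nat.card ↥(v27gFix φ (m * l ^ j)) = l ^ (e + d * j))
    (hnorm : ∀ m n : ℕ, 0 < m → 0 < n → ∀ y : T, (φ ^ m) y = y →
      ∃ x : T, (φ ^ (m * n)) x = x ∧ v27gNorm φ m n x = y)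
    (m : ℕ) (hm : 0 < m) (hMm : M₀ ∣ m) (j : ℕ) :
    Nat.card ↥(v27gFix φ m ⊓ v27gTor T (l ^ j)) ≤ l ^ (d * j) := by
  have hlp : l.Prime := hl.out
  have hlj : 0 < l ^ j := pow_pos hlp.pos j
  rw [← v27g_card_ker l φ d M₀ hM₀ hcard hnorm m hm hMm j]
  haveI : Finite ↥(v27gFix φ (m * l ^ j)) :=
    v27g_finite_fix l φ d M₀ hcard _ (Nat.mul_pos hm hlj) (hMm.mul_right _)
  let ι : ↥(v27gFix φ m ⊓ v27gTor T (l ^ j)) → ↥(v27gNormRes φ m (l ^ j)).ker := fun x =>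
    ⟨⟨x.1, v27g_fix_le_mul φ m (l ^ j) x.2.1⟩, by
      rw [AddMonoidHom.mem_ker]
      show v27gNorm φ m (l ^ j) x.1 = 0
      rw [v27g_norm_of_fix φ m (l ^ j) x.1 x.2.1]
      exact x.2.2⟩
  refine Nat.card_le_card_of_injective ι ?_
  intro a b hab
  have := congrArg (fun z : ↥(v27gNormRes φ m (l ^ j)).ker => (z.1.1 : T)) hab
  exact Subtype.ext this

/-- if `φ ^ m` fixes `T[l ^ (k+1)]` pointwise, the kernel of the norm `∑_{i < l^k} φ ^ (m i)` on `T`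
is `T[l ^ k]` -/
theorem v27g_norm_eq_zero (htors : ∀ x : T, ∃ k : ℕ, (l ^ k) • x = 0) (m k : ℕ)
    (hfixtor : ∀ x : T, (l ^ (k + 1)) • x = 0 → (φ ^ m) x = x) :
    ∀ (j : ℕ) (x : T), (l ^ j) • x = 0 → v27gNorm φ m (l ^ k) x = 0 → (l ^ k) • x = 0 := by
  intro j
  induction j with
  | zero =>
    intro x hx _
    rw [pow_zero, one_smul] at hx
    rw [hx, smul_zero]
  | succ j ih =>
    intro x hx hN
    by_cases hjk : j + 1 ≤ k
    · obtain ⟨d, rfl⟩ := Nat.exists_eq_add_of_le hjk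
      rw [pow_add, mul_comm, mul_smul, hx, smul_zero]
    · rw [not_le] at hjk
      -- `j = k + d`
      obtain ⟨d, rfl⟩ := Nat.exists_eq_add_of_le (Nat.lt_succ_iff.mp hjk)
      refine ih x ?_ hN
      -- `y = l ^ d x ∈ T[l ^ (k+1)]`
      have hy : (l ^ (k + 1)) • ((l ^ d) • x) = 0 := by
        rw [← mul_smul, ← pow_add]
        have : k + 1 + d = k + d + 1 := by ring
        rw [this]
        exact hx
      have hyfix := hfixtor _ hy
      have h1 := v27g_norm_of_fix φ m (l ^ k) _ hyfix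
      rw [map_nsmul, hN, smul_zero] at h1
      rw [pow_add, mul_smul]
      exact h1.symm

/-- **THE GROUP THEORY OF S27 (finite-field half)**, `End`-power form. -/
theorem v27g_card_torsion_end (hM₀ : 0 < M₀)
    (htors : ∀ x : T, ∃ k : ℕ, (l ^ k) • x = 0)
    (hfix : ∀ x : T, ∃ m : ℕ, 0 < m ∧ (φ ^ m) x = x)
    (hcard : ∀ m : ℕ, 0 < m → M₀ ∣ m →
      ∃ e : ℕ, ∀ j : ℕ, Nat.card ↥(v27gFix φ (m * l ^ j)) = l ^ (e + d * j))
    (hnorm : ∀ m n : ℕ, 0 < m → 0 < n → ∀ y : T, (φ ^ m) y = y →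
      ∃ x : T, (φ ^ (m * n)) x = x ∧ v27gNorm φ m n x = y)
    (k : ℕ) : Nat.card ↥(v27gTor T (l ^ k)) = l ^ (d * k) := by
  have hlp : l.Prime := hl.out
  -- choose `m` with `|T_m[l ^ (k+1)]|` maximal
  let S : Set ℕ := {c | ∃ m : ℕ, 0 < m ∧ M₀ ∣ m ∧
    c = Nat.card ↥(v27gFix φ m ⊓ v27gTor T (l ^ (k + 1)))}
  have hSne : S.Nonempty := ⟨_, M₀, hM₀, dvd_rfl, rfl⟩
  have hSbdd : BddAbove S := by
    refine ⟨l ^ (d * (k + 1)), ?_⟩
    rintro c ⟨m, hm, hMm, rfl⟩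
    exact v27g_card_fix_tor_le l φ d M₀ hM₀ hcard hnorm m hm hMm (k + 1)
  obtain ⟨m, hm, hMm, hmax⟩ := Nat.sSup_mem hSne hSbdd
  -- `T[l ^ (k+1)] ⊆ T_m`
  have hfixtor : ∀ x : T, (l ^ (k + 1)) • x = 0 → (φ ^ m) x = x := by
    intro x hx
    obtain ⟨mx, hmx, hxfix⟩ := hfix x
    have hle : v27gFix φ m ⊓ v27gTor T (l ^ (k + 1)) ≤
        v27gFix φ (m * mx) ⊓ v27gTor T (l ^ (k + 1)) :=
      inf_le_inf_right _ (v27g_fix_le_mul φ m mx)
    haveI : Finite ↥(v27gFix φ (m * mx)) :=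
      v27g_finite_fix l φ d M₀ hcard _ (Nat.mul_pos hm hmx) (hMm.mul_right _)
    haveI : Finite ↥(v27gFix φ (m * mx) ⊓ v27gTor T (l ^ (k + 1))) :=
      Finite.of_injective (fun z => (⟨z.1, z.2.1⟩ : ↥(v27gFix φ (m * mx))))
        (fun a b hab => Subtype.ext (congrArg (fun z : ↥(v27gFix φ (m * mx)) => (z.1 : T)) hab))
    have hcle : Nat.card ↥(v27gFix φ (m * mx) ⊓ v27gTor T (l ^ (k + 1))) ≤
        Nat.card ↥(v27gFix φ m ⊓ v27gTor T (l ^ (k + 1))) := by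
      rw [← hmax]
      exact le_csSup hSbdd ⟨m * mx, Nat.mul_pos hm hmx, hMm.mul_right _, rfl⟩
    have heq := AddSubgroup.eq_of_le_of_card_ge hle hcle
    have hxmem : x ∈ v27gFix φ (m * mx) ⊓ v27gTor T (l ^ (k + 1)) :=
      ⟨v27g_fix_le_mul' φ m mx hxfix, hx⟩
    rw [← heq] at hxmem
    exact hxmem.1
  -- the kernel of the norm `T_{m l^k} → T_m` is `T[l ^ k]`
  have hker := v27g_card_ker l φ d M₀ hM₀ hcard hnorm m hm hMm k
  rw [← hker]
  have hEl := v27g_norm_eq_zero l φ htors m k hfixtor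
  refine Nat.card_congr
    { toFun := fun x => ⟨⟨x.1, ?_⟩, ?_⟩
      invFun := fun z => ⟨z.1.1, ?_⟩
      left_inv := fun x => rfl
      right_inv := fun z => rfl }
  · -- `T[l ^ k] ⊆ T_{m l^k}`
    refine v27g_fix_le_mul φ m (l ^ k) (hfixtor x.1 ?_)
    rw [pow_succ, mul_comm, mul_smul]
    have : (l ^ k) • (x.1 : T) = 0 := x.2
    rw [this, smul_zero]
  · rw [AddMonoidHom.mem_ker]
    show v27gNorm φ m (l ^ k) x.1 = 0
    have hx0 : (l ^ k) • (x.1 : T) = 0 := x.2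
    have hxfix : (φ ^ m) x.1 = x.1 := by
      refine hfixtor x.1 ?_
      rw [pow_succ, mul_comm, mul_smul, hx0, smul_zero]
    rw [v27g_norm_of_fix φ m (l ^ k) x.1 hxfix]
    exact hx0
  · obtain ⟨j, hj⟩ := htors z.1.1
    have hz : v27gNorm φ m (l ^ k) z.1.1 = 0 := (AddMonoidHom.mem_ker).mp z.2
    exact hEl j z.1.1 hj hz

end Main

/-- iterate form, for `φ : AddMonoid.End T` -/
theorem v27g_card_torsion_aux (l : ℕ) [Fact l.Prime] (φ : AddMonoid.End T) (d M₀ : ℕ)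
    (hM₀ : 0 < M₀)
    (htors : ∀ x : T, ∃ k : ℕ, (l ^ k) • x = 0)
    (hfix : ∀ x : T, ∃ m : ℕ, 0 < m ∧ (⇑φ)^[m] x = x)
    (hcard : ∀ m : ℕ, 0 < m → M₀ ∣ m →
      ∃ e : ℕ, ∀ j : ℕ, Nat.card {x : T // (⇑φ)^[m * l ^ j] x = x} = l ^ (e + d * j))
    (hnorm : ∀ m n : ℕ, 0 < m → 0 < n → ∀ y : T, (⇑φ)^[m] y = y →
      ∃ x : T, (⇑φ)^[m * n] x = x ∧ ∑ i ∈ Finset.range n, (⇑φ)^[m * i] x = y)
    (k : ℕ) : Nat.card {x : T // (l ^ k) • x = 0} = l ^ (d * k) := by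
  have hpow : ∀ (m : ℕ) (x : T), (φ ^ m) x = (⇑φ)^[m] x := by
    intro m x
    rw [AddMonoid.End.coe_pow]
  have h := v27g_card_torsion_end l φ d M₀ hM₀ htors
    (fun x => by
      obtain ⟨m, hm, hx⟩ := hfix x
      exact ⟨m, hm, (hpow m x).trans hx⟩)
    (fun m hm hMm => by
      obtain ⟨e, he⟩ := hcard m hm hMm
      refine ⟨e, fun j => ?_⟩
      rw [← he j]
      exact Nat.card_congr (Equiv.subtypeEquivRight (fun x => by
        show (φ ^ (m * l ^ j)) x = x ↔ _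
        rw [hpow])))
    (fun m n hm hn y hy => by
      obtain ⟨x, hx, hxy⟩ := hnorm m n hm hn y ((hpow m y).symm.trans hy)
      refine ⟨x, (hpow _ x).trans hx, ?_⟩
      rw [v27g_norm_apply, ← hxy]
      exact Finset.sum_congr rfl (fun i _ => hpow _ x))
    k
  rw [← h]
  exact Nat.card_congr (Equiv.subtypeEquivRight (fun x => Iff.rfl))

/-- **THE GROUP THEORY OF S27 (finite-field half)**, abstract growth form : `T` an `l`-primary abelian
group, `φ` an endomorphism, `T = ⋃ T_m` (`T_m` the fixed points of `φ^[m]`), for `M₀ ∣ m` the orders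
`|T_{m l^j}| = l ^ (e_m + d j)`, norms `∑_{i < n} φ^[m i] : T_{m n} → T_m` onto.
Then `|T[l ^ k]| = l ^ (d k)`. -/
theorem v27g_card_torsion_grow (l : ℕ) [Fact l.Prime] (φ : T →+ T) (d M₀ : ℕ) (hM₀ : 0 < M₀)
    (htors : ∀ x : T, ∃ k : ℕ, (l ^ k) • x = 0)
    (hfix : ∀ x : T, ∃ m : ℕ, 0 < m ∧ (⇑φ)^[m] x = x)
    (hcard : ∀ m : ℕ, 0 < m → M₀ ∣ m →
      ∃ e : ℕ, ∀ j : ℕ, Nat.card {x : T // (⇑φ)^[m * l ^ j] x = x} = l ^ (e + d * j))
    (hnorm : ∀ m n : ℕ, 0 < m → 0 < n → ∀ y : T, (⇑φ)^[m] y = y →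
      ∃ x : T, (⇑φ)^[m * n] x = x ∧ ∑ i ∈ Finset.range n, (⇑φ)^[m * i] x = y)
    (k : ℕ) : Nat.card {x : T // (l ^ k) • x = 0} = l ^ (d * k) :=
  v27g_card_torsion_aux l φ d M₀ hM₀ htors hfix hcard hnorm k

/-- **THE GROUP THEORY OF S27 (finite-field half)**, the LTE shape (`v27lte_main`) :
`|T_{M₀ m' l^s}| = l ^ (c₀ + d s)` for `l ∤ m'`. -/
theorem v27g_card_torsion (l : ℕ) [hl : Fact l.Prime] (φ : T →+ T) (d c₀ M₀ : ℕ) (hM₀ : 0 < M₀)
    (htors : ∀ x : T, ∃ k : ℕ, (l ^ k) • x = 0)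
    (hfix : ∀ x : T, ∃ m : ℕ, 0 < m ∧ (⇑φ)^[m] x = x)
    (hcard : ∀ m' s : ℕ, 0 < m' → ¬ l ∣ m' →
      Nat.card {x : T // (⇑φ)^[M₀ * m' * l ^ s] x = x} = l ^ (c₀ + d * s))
    (hnorm : ∀ m n : ℕ, 0 < m → 0 < n → ∀ y : T, (⇑φ)^[m] y = y →
      ∃ x : T, (⇑φ)^[m * n] x = x ∧ ∑ i ∈ Finset.range n, (⇑φ)^[m * i] x = y)
    (k : ℕ) : Nat.card {x : T // (l ^ k) • x = 0} = l ^ (d * k) := by
  refine v27g_card_torsion_grow l φ d M₀ hM₀ htors hfix ?_ hnorm k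
  rintro m hm ⟨r, rfl⟩
  have hr : r ≠ 0 := by
    rintro rfl
    simp at hm
  obtain ⟨s, m', hm', rfl⟩ := Nat.exists_eq_pow_mul_and_not_dvd hr l hl.out.ne_one
  have hm'0 : 0 < m' := by
    rcases Nat.eq_zero_or_pos m' with h | h
    · exact absurd (h ▸ dvd_zero l) hm'
    · exact h
  refine ⟨c₀ + d * s, fun j => ?_⟩
  have e1 : M₀ * (l ^ s * m') * l ^ j = M₀ * m' * l ^ (s + j) := by
    rw [pow_add]
    ring
  rw [e1, hcard m' (s + j) hm'0 hm']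
  congr 1
  ring

/-- the shape `|T_m| = l ^ (c₀ + d v_l(m))` for `M₀ ∣ m` (satisfiable only if the stable LTE
constant is non-negative; kept for reference) -/
theorem v27g_card_torsion_dvd (l : ℕ) [hl : Fact l.Prime] (φ : T →+ T) (d c₀ M₀ : ℕ)
    (hM₀ : 0 < M₀)
    (htors : ∀ x : T, ∃ k : ℕ, (l ^ k) • x = 0)
    (hfix : ∀ x : T, ∃ m : ℕ, 0 < m ∧ (⇑φ)^[m] x = x)
    (hcard : ∀ m : ℕ, 0 < m → M₀ ∣ m →
      Nat.card {x : T // (⇑φ)^[m] x = x} = l ^ (c₀ + d * padicValNat l m))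
    (hnorm : ∀ m n : ℕ, 0 < m → 0 < n → ∀ y : T, (⇑φ)^[m] y = y →
      ∃ x : T, (⇑φ)^[m * n] x = x ∧ ∑ i ∈ Finset.range n, (⇑φ)^[m * i] x = y)
    (k : ℕ) : Nat.card {x : T // (l ^ k) • x = 0} = l ^ (d * k) := by
  refine v27g_card_torsion_grow l φ d M₀ hM₀ htors hfix ?_ hnorm k
  intro m hm hMm
  refine ⟨c₀ + d * padicValNat l m, fun j => ?_⟩
  have hlj : 0 < l ^ j := pow_pos hl.out.pos j
  rw [hcard (m * l ^ j) (Nat.mul_pos hm hlj) (hMm.mul_right _),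
    padicValNat.mul hm.ne' hlj.ne', padicValNat.prime_pow]
  congr 1
  ring

end Fermat.Agent.V
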