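/-
Program V (S27), leaf A6: "lifting the exponent" for the class-number sequence
`h_m = det (1 - M ^ m)` of an integer matrix `M` with `ℓ ∤ det M`.
No `ℓ`-adic field, no roots: everything happens in integer matrices.
-/
import Mathlib

set_option autoImplicit false

open Finset Matrix

namespace Fermat.Agent.V

variable {ι : Type*} [Fintype ι] [DecidableEq ι]

/-- The class-number sequence attached to an integer matrix. -/
def v27lte_h (M : Matrix ι ι ℤ) (m : ℕ) : ℤ := (1 - M ^ m).det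

theorem v27lte_h_def (M : Matrix ι ι ℤ) (m : ℕ) : v27lte_h M m = (1 - M ^ m).det := rfl

/-- `h_{mn} = h_m * det (∑_{j<n} M^{mj})`. -/
theorem v27lte_h_mul (M : Matrix ι ι ℤ) (m n : ℕ) :
    v27lte_h M (m * n) = v27lte_h M m * (∑ j ∈ range n, (M ^ m) ^ j).det := by
  unfold v27lte_h
  rw [← Matrix.det_mul, mul_neg_geom_sum, pow_mul]

/-- (i) divisibility. -/
theorem v27lte_h_dvd (M : Matrix ι ι ℤ) (m n : ℕ) : v27lte_h M m ∣ v27lte_h M (m * n) :=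
  ⟨_, v27lte_h_mul M m n⟩

/-- Congruence of integer matrices modulo an integer, phrased by an explicit quotient. -/
def v27lte_Cong (c : ℤ) (A B : Matrix ι ι ℤ) : Prop := ∃ X : Matrix ι ι ℤ, A = B + c • X

theorem v27lte_cong_pow {c : ℤ} {A : Matrix ι ι ℤ} (h : v27lte_Cong c A 1) (n : ℕ) :
    v27lte_Cong c (A ^ n) 1 := by
  obtain ⟨X, hX⟩ := h
  refine ⟨(∑ j ∈ range n, A ^ j) * X, ?_⟩
  have h1 : A ^ n - 1 = (∑ j ∈ range n, A ^ j) * (A - 1) := (geom_sum_mul A n).symm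
  have h2 : A - 1 = c • X := by rw [hX]; abel
  rw [h2, Matrix.mul_smul] at h1
  rw [← h1]; abel

theorem v27lte_cong_geom_sum {c : ℤ} {A : Matrix ι ι ℤ} (h : v27lte_Cong c A 1) (n : ℕ) :
    ∃ Y : Matrix ι ι ℤ, ∑ j ∈ range n, A ^ j = (n : ℤ) • (1 : Matrix ι ι ℤ) + c • Y := by
  choose X hX using fun j => v27lte_cong_pow h j
  refine ⟨∑ j ∈ range n, X j, ?_⟩
  rw [Finset.smul_sum, Finset.sum_congr rfl (fun j _ => hX j), Finset.sum_add_distrib]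
  simp

/-- If `N = a • 1 + ℓ • Z` then `det N ≡ a ^ card mod ℓ`. -/
theorem v27lte_det_cong (ℓ : ℕ) (a : ℤ) (Z : Matrix ι ι ℤ) :
    ((a • (1 : Matrix ι ι ℤ) + (ℓ : ℤ) • Z).det : ZMod ℓ) = (a : ZMod ℓ) ^ Fintype.card ι := by
  have := RingHom.map_det (Int.castRingHom (ZMod ℓ)) (a • (1 : Matrix ι ι ℤ) + (ℓ : ℤ) • Z)
  rw [eq_intCast] at this
  rw [this]
  have h2 : (Int.castRingHom (ZMod ℓ)).mapMatrix (a • (1 : Matrix ι ι ℤ) + (ℓ : ℤ) • Z)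
      = (a : ZMod ℓ) • (1 : Matrix ι ι (ZMod ℓ)) := by
    ext i j
    simp only [RingHom.mapMatrix_apply, Matrix.map_apply, Matrix.add_apply, Matrix.smul_apply,
      eq_intCast, Int.cast_add, smul_eq_mul, Int.cast_mul, Int.cast_natCast,
      CharP.cast_eq_zero, zero_mul, add_zero]
    by_cases hij : i = j
    · subst hij
      simp
    · simp [Matrix.one_apply_ne hij]
  rw [h2, Matrix.det_smul, Matrix.det_one, mul_one]

theorem v27lte_not_dvd_det {ℓ : ℕ} [Fact ℓ.Prime] {a : ℤ} (ha : ¬ (ℓ : ℤ) ∣ a)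
    (Z : Matrix ι ι ℤ) : ¬ (ℓ : ℤ) ∣ (a • (1 : Matrix ι ι ℤ) + (ℓ : ℤ) • Z).det := by
  intro hd
  have h1 := (ZMod.intCast_zmod_eq_zero_iff_dvd _ ℓ).mpr hd
  rw [v27lte_det_cong] at h1
  rcases Nat.eq_zero_or_pos (Fintype.card ι) with h0 | h0
  · rw [h0, pow_zero] at h1
    exact one_ne_zero h1
  · have h3 : (a : ZMod ℓ) = 0 := by
      exact pow_eq_zero_iff (Nat.pos_iff_ne_zero.mp h0) |>.mp h1
    exact ha ((ZMod.intCast_zmod_eq_zero_iff_dvd _ ℓ).mp h3)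

/-- The prime-to-`ℓ` step: if `A ≡ 1 mod ℓ` and `ℓ ∤ m'` then `det (∑_{j<m'} A^j)` is prime to `ℓ`. -/
theorem v27lte_step_coprime {ℓ : ℕ} [Fact ℓ.Prime] {A : Matrix ι ι ℤ}
    (h : v27lte_Cong (ℓ : ℤ) A 1) {m' : ℕ} (hm' : ¬ ℓ ∣ m') :
    ¬ (ℓ : ℤ) ∣ (∑ j ∈ range m', A ^ j).det := by
  obtain ⟨Y, hY⟩ := v27lte_cong_geom_sum h m'
  rw [hY]
  exact v27lte_not_dvd_det (by exact_mod_cast hm') Y

/-- The `ℓ`-step: if `A ≡ 1 mod ℓ²` then `det (∑_{j<ℓ} A^j) = ℓ^card * u` with `ℓ ∤ u`. -/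
theorem v27lte_step_ell {ℓ : ℕ} [Fact ℓ.Prime] {A : Matrix ι ι ℤ}
    (h : v27lte_Cong ((ℓ : ℤ) ^ 2) A 1) :
    ∃ u : ℤ, ¬ (ℓ : ℤ) ∣ u ∧ (∑ j ∈ range ℓ, A ^ j).det = (ℓ : ℤ) ^ Fintype.card ι * u := by
  obtain ⟨Y, hY⟩ := v27lte_cong_geom_sum h ℓ
  refine ⟨((1 : ℤ) • (1 : Matrix ι ι ℤ) + (ℓ : ℤ) • Y).det, v27lte_not_dvd_det ?_ Y, ?_⟩
  · intro h1
    have := Int.eq_one_of_dvd_one (by positivity) h1
    have hp := (Fact.out : ℓ.Prime).one_lt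
    omega
  · rw [hY, ← Matrix.det_smul]
    congr 1
    rw [smul_add, smul_smul, smul_smul, mul_one, pow_two]

/-- A matrix which is `≡ B` entrywise modulo `c` (as elements of `ZMod c`) is congruent. -/
theorem v27lte_cong_of_map_eq {c : ℕ} {A B : Matrix ι ι ℤ}
    (h : (Int.castRingHom (ZMod c)).mapMatrix A = (Int.castRingHom (ZMod c)).mapMatrix B) :
    v27lte_Cong (c : ℤ) A B := by
  have hd : ∀ i j, (c : ℤ) ∣ A i j - B i j := by
    intro i j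
    have := congrFun (congrFun h i) j
    simp only [RingHom.mapMatrix_apply, Matrix.map_apply, eq_intCast] at this
    rw [← ZMod.intCast_zmod_eq_zero_iff_dvd, Int.cast_sub, this, sub_self]
  choose X hX using hd
  refine ⟨Matrix.of X, ?_⟩
  ext i j
  simp only [Matrix.add_apply, Matrix.smul_apply, Matrix.of_apply, smul_eq_mul]
  rw [← hX i j]; ring

/-- Some positive power of an integer matrix with `ℓ ∤ det` is `≡ 1 mod ℓ²`. -/
theorem v27lte_exists_cong (M : Matrix ι ι ℤ) {ℓ : ℕ} [Fact ℓ.Prime] (hdet : ¬ (ℓ : ℤ) ∣ M.det) :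
    ∃ e : ℕ, 0 < e ∧ v27lte_Cong ((ℓ : ℤ) ^ 2) (M ^ e) 1 := by
  have hℓ : ℓ.Prime := Fact.out
  have : NeZero (ℓ ^ 2) := ⟨pow_ne_zero _ hℓ.ne_zero⟩
  set R := ZMod (ℓ ^ 2) with hR
  set N : Matrix ι ι R := (Int.castRingHom R).mapMatrix M with hN
  have hcop : IsCoprime ((ℓ ^ 2 : ℕ) : ℤ) M.det := by
    have h1 : IsCoprime (ℓ : ℤ) M.det :=
      ((Nat.prime_iff_prime_int.mp hℓ).irreducible.coprime_iff_not_dvd).mpr hdet
    push_cast
    exact h1.pow_left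
  have hNdet : IsUnit N.det := by
    rw [hN, ← RingHom.map_det, eq_intCast]
    exact (ZMod.coe_int_isUnit_iff_isCoprime _ _).mpr hcop
  have hNu : IsUnit N := (Matrix.isUnit_iff_isUnit_det N).mpr hNdet
  obtain ⟨u, hu⟩ := hNu
  refine ⟨orderOf u, orderOf_pos u, ?_⟩
  have h1 : N ^ orderOf u = 1 := by
    rw [← hu, ← Units.val_pow_eq_pow_val, pow_orderOf_eq_one, Units.val_one]
  have h2 : (Int.castRingHom R).mapMatrix (M ^ orderOf u)
      = (Int.castRingHom R).mapMatrix (1 : Matrix ι ι ℤ) := by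
    rw [map_pow, map_one, ← hN, h1]
  have := v27lte_cong_of_map_eq (c := ℓ ^ 2) h2
  simpa using this

/-- (ii) **LTE for the class-number sequence.**  If `ℓ ∤ det M` and no `h_m` (`m > 0`) vanishes,
there is `e > 0` such that `v_ℓ (h_{e m' ℓ^s}) = v_ℓ (h_e) + card ι * s` for all `m'` prime
to `ℓ` and all `s`. Every `e > 0` with `M ^ e ≡ 1 mod ℓ²` works. -/
theorem v27lte_main_of_cong (M : Matrix ι ι ℤ) {ℓ : ℕ} [Fact ℓ.Prime]
    (hne : ∀ m : ℕ, 0 < m → v27lte_h M m ≠ 0) {e : ℕ} (he : 0 < e)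
    (hcong : v27lte_Cong ((ℓ : ℤ) ^ 2) (M ^ e) 1) (m' s : ℕ) (hm'0 : 0 < m') (hm' : ¬ ℓ ∣ m') :
    padicValInt ℓ (v27lte_h M (e * m' * ℓ ^ s))
      = padicValInt ℓ (v27lte_h M e) + Fintype.card ι * s := by
  have hℓ : ℓ.Prime := Fact.out
  induction s with
  | zero =>
    rw [pow_zero, mul_one, mul_zero, add_zero, v27lte_h_mul]
    have hc1 : v27lte_Cong (ℓ : ℤ) (M ^ e) 1 := by
      obtain ⟨X, hX⟩ := hcong
      exact ⟨(ℓ : ℤ) • X, by rw [hX, smul_smul, pow_two]⟩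
    have h2 := v27lte_step_coprime hc1 hm'
    have h3 : (∑ j ∈ range m', (M ^ e) ^ j).det ≠ 0 := fun h0 => h2 (h0 ▸ dvd_zero _)
    rw [padicValInt.mul (hne e he) h3, padicValInt.eq_zero_of_not_dvd h2, add_zero]
  | succ s ih =>
    have hpos : 0 < e * m' * ℓ ^ s := Nat.mul_pos (Nat.mul_pos he hm'0) (pow_pos hℓ.pos s)
    rw [pow_succ, ← mul_assoc, v27lte_h_mul]
    have hc : v27lte_Cong ((ℓ : ℤ) ^ 2) (M ^ (e * m' * ℓ ^ s)) 1 := by
      rw [mul_assoc, pow_mul]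
      exact v27lte_cong_pow hcong _
    obtain ⟨u, hu, hdet⟩ := v27lte_step_ell hc
    have hu0 : u ≠ 0 := fun h0 => hu (h0 ▸ dvd_zero _)
    have hℓ0 : ((ℓ : ℤ) ^ Fintype.card ι) ≠ 0 := pow_ne_zero _ (by exact_mod_cast hℓ.ne_zero)
    rw [hdet, padicValInt.mul (hne _ hpos) (mul_ne_zero hℓ0 hu0), padicValInt.mul hℓ0 hu0,
      padicValInt.eq_zero_of_not_dvd hu, ih, add_zero]
    have : padicValInt ℓ ((ℓ : ℤ) ^ Fintype.card ι) = Fintype.card ι := by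
      rw [padicValInt, Int.natAbs_pow, Int.natAbs_natCast, padicValNat.prime_pow]
    rw [this]; ring

theorem v27lte_main (M : Matrix ι ι ℤ) {ℓ : ℕ} [Fact ℓ.Prime] (hdet : ¬ (ℓ : ℤ) ∣ M.det)
    (hne : ∀ m : ℕ, 0 < m → v27lte_h M m ≠ 0) :
    ∃ e : ℕ, 0 < e ∧ ∀ m' s : ℕ, 0 < m' → ¬ ℓ ∣ m' →
      padicValInt ℓ (v27lte_h M (e * m' * ℓ ^ s))
        = padicValInt ℓ (v27lte_h M e) + Fintype.card ι * s := by
  obtain ⟨e, he, hcong⟩ := v27lte_exists_cong M hdet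
  exact ⟨e, he, fun m' s h0 h1 => v27lte_main_of_cong M hne he hcong m' s h0 h1⟩

end Fermat.Agent.V
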