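import Mathlib
import Fermat.Agent.V.Group
import Fermat.Agent.V.LTE

/-!
# Program V (S27), GLUE-A, abstract half (prefix `v27a`)

`P` an abelian group with an endomorphism `φ` ("Frobenius on `Pic⁰(F̃)`") such that every element is
fixed by some `φ^[m]`, the levels `P_m := P^{φ^m}` are finite of order `|det (1 - M ^ m)|` for an
integer matrix `M` with `l ∤ det M`, and the norms `∑_{i<n} φ^[m i] : P_{m n} → P_m` are onto.
Then `|P[l ^ k]| = l ^ (d k)`, `d` the size of `M` (`v27a_card_torsion`).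

Inside : the `l`-primary part of a finite abelian group `G` has `l ^ v_l(|G|)` elements
(`v27a_card_primary`), the passage to `T = P[l^∞]`, helper19's LTE (`v27lte_main`) and the group theory
`v27g_card_torsion`.
-/

set_option autoImplicit false
set_option linter.unusedSectionVars false
set_option linter.unusedVariables false
set_option linter.style.haveILetI false

namespace Fermat.Agent.V

open Finset

/-! ### the `l`-primary part of a finite abelian group -/

section Primary

variable {G : Type*} [AddCommGroup G]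

/-- the `l`-primary part -/
def v27aPrim (G : Type*) [AddCommGroup G] (l : ℕ) : AddSubgroup G where
  carrier := {x | ∃ k : ℕ, (l ^ k) • x = 0}
  zero_mem' := ⟨0, smul_zero _⟩
  add_mem' := by
    rintro a b ⟨i, hi⟩ ⟨j, hj⟩
    refine ⟨i + j, ?_⟩
    rw [smul_add, pow_add, mul_comm, mul_smul, hi, smul_zero, zero_add, mul_comm, mul_smul, hj,
      smul_zero]
  neg_mem' := by
    rintro a ⟨i, hi⟩
    exact ⟨i, by rw [smul_neg, hi, neg_zero]⟩

theorem v27a_mem_prim {l : ℕ} {x : G} : x ∈ v27aPrim G l ↔ ∃ k : ℕ, (l ^ k) • x = 0 := Iff.rfl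

variable (l : ℕ) [hl : Fact l.Prime]

/-- in a finite group, `l`-power torsion is killed by `l ^ v_l(|G|)` -/
theorem v27a_prim_nsmul [Finite G] {x : G} (hx : x ∈ v27aPrim G l) :
    (l ^ padicValNat l (Nat.card G)) • x = 0 := by
  obtain ⟨k, hk⟩ := hx
  have h1 : addOrderOf x ∣ l ^ k := addOrderOf_dvd_iff_nsmul_eq_zero.mpr hk
  obtain ⟨i, -, hi⟩ := (Nat.dvd_prime_pow hl.out).mp h1
  have h2 : l ^ i ∣ Nat.card G := hi ▸ addOrderOf_dvd_natCard x
  have h3 : i ≤ padicValNat l (Nat.card G) :=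
    (padicValNat_dvd_iff_le (Nat.card_pos (α := G)).ne').mp h2
  rw [← addOrderOf_dvd_iff_nsmul_eq_zero, hi]
  exact pow_dvd_pow l h3

/-- multiplication by `u` prime to `l` is injective on the `l`-primary part -/
theorem v27a_prim_smul_injective {u : ℕ} (hu : l.Coprime u) {x : G} (hx : x ∈ v27aPrim G l)
    (hux : u • x = 0) : x = 0 := by
  obtain ⟨k, hk⟩ := hx
  have h1 : addOrderOf x ∣ l ^ k := addOrderOf_dvd_iff_nsmul_eq_zero.mpr hk
  have h2 : addOrderOf x ∣ u := addOrderOf_dvd_iff_nsmul_eq_zero.mpr hux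
  have h3 : addOrderOf x ∣ Nat.gcd (l ^ k) u := Nat.dvd_gcd h1 h2
  have h4 : Nat.gcd (l ^ k) u = 1 := Nat.Coprime.pow_left k hu
  rw [h4, Nat.dvd_one] at h3
  exact AddMonoid.addOrderOf_eq_one_iff.mp h3

/-- multiplication by `u` prime to `l` is onto on the `l`-primary part of a finite group -/
theorem v27a_prim_smul_surjective [Finite G] {u : ℕ} (hu : l.Coprime u) {y : G}
    (hy : y ∈ v27aPrim G l) : ∃ x ∈ v27aPrim G l, u • x = y := by
  let f : ↥(v27aPrim G l) →+ ↥(v27aPrim G l) := nsmulAddMonoidHom u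
  have hinj : Function.Injective f := by
    rw [injective_iff_map_eq_zero]
    intro a ha
    have h1 : u • (a : G) = 0 := by
      have := congrArg (fun z : ↥(v27aPrim G l) => (z : G)) ha
      simpa [f] using this
    exact Subtype.ext (v27a_prim_smul_injective l hu a.2 h1)
  obtain ⟨x, hx⟩ := (Finite.injective_iff_surjective.mp hinj) ⟨y, hy⟩
  refine ⟨x.1, x.2, ?_⟩
  have := congrArg (fun z : ↥(v27aPrim G l) => (z : G)) hx
  simpa [f] using this

/-- **the `l`-primary part of a finite abelian group has `l ^ v_l(|G|)` elements** -/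
theorem v27a_card_primary [Finite G] :
    Nat.card ↥(v27aPrim G l) = l ^ padicValNat l (Nat.card G) := by
  have hlp : l.Prime := hl.out
  have hn0 : Nat.card G ≠ 0 := (Nat.card_pos (α := G)).ne'
  set n := Nat.card G with hn
  set e := padicValNat l n with he
  set u := n / l ^ e with hu
  have hfac : n.factorization l = e := Nat.factorization_def n hlp
  have hnu : l ^ e * u = n := by
    have := Nat.ordProj_mul_ordCompl_eq_self n l
    rwa [hfac] at this
  have hcop : l.Coprime u := by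
    have := Nat.coprime_ordCompl hlp hn0
    rwa [hfac] at this
  -- `f = u •`
  let f : G →+ G := nsmulAddMonoidHom u
  have hrange : f.range = v27aPrim G l := by
    ext x
    constructor
    · rintro ⟨y, rfl⟩
      refine ⟨e, ?_⟩
      show (l ^ e) • (u • y) = 0
      rw [← mul_smul, hnu]
      exact card_nsmul_eq_zero'
    · intro hx
      obtain ⟨y, -, hy⟩ := v27a_prim_smul_surjective l hcop hx
      exact ⟨y, hy⟩
  have hcount := AddSubgroup.card_mul_index f.ker
  rw [AddSubgroup.index_ker, hrange] at hcount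
  -- `l ∤ |ker f|`
  have hker : ¬ l ∣ Nat.card ↥f.ker := by
    intro hdvd
    obtain ⟨x, hx⟩ := exists_prime_addOrderOf_dvd_card' (G := ↥f.ker) l hdvd
    have h1 : u • (x : G) = 0 := x.2
    have h2 : addOrderOf (x : G) = l := by
      rw [← hx]
      exact (AddSubgroup.addOrderOf_coe x)
    have h3 : l ∣ u := h2 ▸ addOrderOf_dvd_iff_nsmul_eq_zero.mpr h1
    have h4 : l ∣ Nat.gcd l u := Nat.dvd_gcd dvd_rfl h3
    rw [hcop, Nat.dvd_one] at h4
    exact hlp.one_lt.ne' h4
  -- `|A|` is a power of `l`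
  have hA0 : Nat.card ↥(v27aPrim G l) ≠ 0 := (Nat.card_pos (α := ↥(v27aPrim G l))).ne'
  have hApow := Nat.eq_prime_pow_of_unique_prime_dvd (p := l) hA0 (by
    intro r hr hrdvd
    haveI : Fact r.Prime := ⟨hr⟩
    obtain ⟨x, hx⟩ := exists_prime_addOrderOf_dvd_card' (G := ↥(v27aPrim G l)) r hrdvd
    have h2 : addOrderOf (x : G) = r := by
      rw [← hx]
      exact (AddSubgroup.addOrderOf_coe x)
    obtain ⟨k, hk⟩ := x.2
    have h3 : r ∣ l ^ k := h2 ▸ addOrderOf_dvd_iff_nsmul_eq_zero.mpr hk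
    exact (Nat.prime_dvd_prime_iff_eq hr hlp).mp (hr.dvd_of_dvd_pow h3))
  set a := (Nat.card ↥(v27aPrim G l)).primeFactorsList.length with ha
  -- compare valuations
  have hval : padicValNat l (Nat.card ↥f.ker * Nat.card ↥(v27aPrim G l)) = e := by
    rw [hcount]
  have hk0 : Nat.card ↥f.ker ≠ 0 := (Nat.card_pos (α := ↥f.ker)).ne'
  rw [padicValNat.mul hk0 hA0, padicValNat.eq_zero_of_not_dvd hker, zero_add, hApow,
    padicValNat.prime_pow] at hval
  rw [hApow, hval]

end Primary

/-! ### the passage to the `l`-primary part of `P` -/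

section Res

variable {P : Type*} [AddCommGroup P] (l : ℕ) (φ : AddMonoid.End P)

/-- `φ` restricted to the `l`-primary part -/
def v27aRes : AddMonoid.End ↥(v27aPrim P l) :=
  AddMonoidHom.codRestrict (φ.comp (v27aPrim P l).subtype) (v27aPrim P l) (by
    rintro ⟨x, k, hk⟩
    refine ⟨k, ?_⟩
    show (l ^ k) • φ x = 0
    rw [← map_nsmul, hk, map_zero])

theorem v27a_res_apply (x : ↥(v27aPrim P l)) : ((v27aRes l φ x : ↥(v27aPrim P l)) : P) = φ x := rfl

theorem v27a_res_pow_apply (m : ℕ) (x : ↥(v27aPrim P l)) :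
    (((v27aRes l φ) ^ m) x : P) = (φ ^ m) (x : P) := by
  induction m generalizing x with
  | zero => rfl
  | succ m ih =>
    rw [pow_succ, pow_succ]
    show ((((v27aRes l φ) ^ m) ((v27aRes l φ) x) : ↥(v27aPrim P l)) : P) = (φ ^ m) (φ (x : P))
    rw [ih]
    rfl

theorem v27a_res_norm_apply (m n : ℕ) (x : ↥(v27aPrim P l)) :
    ((v27gNorm (v27aRes l φ) m n x : ↥(v27aPrim P l)) : P) = v27gNorm φ m n (x : P) := by
  rw [v27g_norm_apply, v27g_norm_apply, AddSubmonoidClass.coe_finsetSum]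
  exact Finset.sum_congr rfl (fun i _ => v27a_res_pow_apply l φ (m * i) x)

end Res

/-! ### the abstract Part A -/

section Main

variable {P : Type*} [AddCommGroup P] (l : ℕ) [hl : Fact l.Prime] (φ : AddMonoid.End P)
  {ι : Type*} [Fintype ι] [DecidableEq ι] (M : Matrix ι ι ℤ)

/-- the level-`m` part of `T = P[l^∞]` has `l ^ v_l(h_m)` elements -/
theorem v27a_card_fix_res
    (hfin : ∀ m : ℕ, 0 < m → Finite ↥(v27gFix φ m))
    (hcard : ∀ m : ℕ, 0 < m → (Nat.card ↥(v27gFix φ m) : ℤ) = |v27lte_h M m|)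
    (m : ℕ) (hm : 0 < m) :
    Nat.card ↥(v27gFix (v27aRes l φ) m) = l ^ padicValInt l (v27lte_h M m) := by
  haveI := hfin m hm
  have h1 : Nat.card ↥(v27gFix φ m) = (v27lte_h M m).natAbs := by
    have := congrArg Int.natAbs (hcard m hm)
    rwa [Int.natAbs_natCast, Int.natAbs_abs] at this
  have h2 := v27a_card_primary (G := ↥(v27gFix φ m)) l
  rw [h1] at h2
  rw [show padicValInt l (v27lte_h M m) = padicValNat l (v27lte_h M m).natAbs from rfl, ← h2]
  refine Nat.card_congr
    { toFun := fun x => ⟨⟨x.1.1, ?_⟩, ?_⟩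
      invFun := fun y => ⟨⟨y.1.1, ?_⟩, ?_⟩
      left_inv := fun x => rfl
      right_inv := fun y => rfl }
  · -- fixed by `φ ^ m`
    have hx : ((v27aRes l φ) ^ m) x.1 = x.1 := x.2
    exact (v27a_res_pow_apply l φ m x.1).symm.trans (congrArg Subtype.val hx)
  · -- `l`-primary in `P_m`
    obtain ⟨k, hk⟩ := x.1.2
    exact ⟨k, Subtype.ext (by rw [AddSubgroup.coe_nsmul]; exact hk)⟩
  · -- `l`-primary in `P`
    obtain ⟨k, hk⟩ := y.2
    refine ⟨k, ?_⟩
    have := congrArg (fun z : ↥(v27gFix φ m) => (z : P)) hk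
    simpa [AddSubgroup.coe_nsmul] using this
  · -- fixed by `(res φ) ^ m`
    show ((v27aRes l φ) ^ m) _ = _
    refine Subtype.ext ?_
    rw [v27a_res_pow_apply]
    exact y.1.2

set_option maxHeartbeats 1000000 in
/-- **THE ABSTRACT PART A**, `End`-power form. -/
theorem v27a_card_torsion_end (hdet : ¬ (l : ℤ) ∣ M.det)
    (hfix : ∀ x : P, ∃ m : ℕ, 0 < m ∧ (φ ^ m) x = x)
    (hfin : ∀ m : ℕ, 0 < m → Finite ↥(v27gFix φ m))
    (hcard : ∀ m : ℕ, 0 < m → (Nat.card ↥(v27gFix φ m) : ℤ) = |v27lte_h M m|)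
    (hnorm : ∀ m n : ℕ, 0 < m → 0 < n → ∀ y : P, (φ ^ m) y = y →
      ∃ x : P, (φ ^ (m * n)) x = x ∧ v27gNorm φ m n x = y)
    (k : ℕ) : Nat.card ↥(v27gTor P (l ^ k)) = l ^ (Fintype.card ι * k) := by
  have hlp : l.Prime := hl.out
  -- `h_m ≠ 0`
  have hne : ∀ m : ℕ, 0 < m → v27lte_h M m ≠ 0 := by
    intro m hm h0
    haveI := hfin m hm
    have h1 := hcard m hm
    rw [h0, abs_zero] at h1
    have h2 : Nat.card ↥(v27gFix φ m) = 0 := by exact_mod_cast h1
    exact (Nat.card_pos (α := ↥(v27gFix φ m))).ne' h2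
  obtain ⟨e, he, hlte⟩ := v27lte_main M hdet hne
  -- the group theory on `T = P[l^∞]`
  have key := v27g_card_torsion_end l (v27aRes l φ) (Fintype.card ι) e he
    (fun x => x.2.imp fun k hk => Subtype.ext (by rw [AddSubgroup.coe_nsmul]; exact hk))
    (fun x => by
      obtain ⟨m, hm, hx⟩ := hfix x.1
      refine ⟨m, hm, Subtype.ext ?_⟩
      rw [v27a_res_pow_apply]
      exact hx)
    (fun m hm hem => by
      obtain ⟨r, rfl⟩ := hem
      have hr : r ≠ 0 := by
        rintro rfl
        simp at hm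
      obtain ⟨s, m', hm', rfl⟩ := Nat.exists_eq_pow_mul_and_not_dvd hr l hlp.ne_one
      have hm'0 : 0 < m' := by
        rcases Nat.eq_zero_or_pos m' with h | h
        · exact absurd (h ▸ dvd_zero l) hm'
        · exact h
      refine ⟨padicValInt l (v27lte_h M e) + Fintype.card ι * s, fun j => ?_⟩
      have e1 : e * (l ^ s * m') * l ^ j = e * m' * l ^ (s + j) := by
        rw [pow_add]
        ring
      have hpos : 0 < e * m' * l ^ (s + j) :=
        Nat.mul_pos (Nat.mul_pos he hm'0) (pow_pos hlp.pos _)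
      rw [e1, v27a_card_fix_res l φ M hfin hcard _ hpos, hlte m' (s + j) hm'0 hm']
      congr 1
      ring)
    (fun m n hm hn y hy => by
      -- `y ∈ T_m`; divide by `u` inside the `l`-part of `P_m`, lift, multiply by `u`
      have hmn : 0 < m * n := Nat.mul_pos hm hn
      haveI := hfin m hm
      haveI := hfin (m * n) hmn
      set N := Nat.card ↥(v27gFix φ (m * n)) with hN
      have hN0 : N ≠ 0 := (Nat.card_pos (α := ↥(v27gFix φ (m * n)))).ne'
      set E := padicValNat l N with hE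
      set u := N / l ^ E with hu
      have hfac : N.factorization l = E := Nat.factorization_def N hlp
      have hNu : l ^ E * u = N := by
        have := Nat.ordProj_mul_ordCompl_eq_self N l
        rwa [hfac] at this
      have hcop : l.Coprime u := by
        have := Nat.coprime_ordCompl hlp hN0
        rwa [hfac] at this
      have hyfix : (φ ^ m) (y : P) = y := by
        exact (v27a_res_pow_apply l φ m y).symm.trans (congrArg Subtype.val hy)
      -- `y₀ : P_m`, in the `l`-part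
      have hy₀ : (⟨(y : P), hyfix⟩ : ↥(v27gFix φ m)) ∈ v27aPrim ↥(v27gFix φ m) l := by
        obtain ⟨k, hk⟩ := y.2
        exact ⟨k, Subtype.ext (by rw [AddSubgroup.coe_nsmul]; exact hk)⟩
      obtain ⟨y', -, hy'⟩ := v27a_prim_smul_surjective l hcop hy₀
      have hy'P : u • (y' : P) = (y : P) := by
        have := congrArg (fun z : ↥(v27gFix φ m) => (z : P)) hy'
        simpa [AddSubgroup.coe_nsmul] using this
      obtain ⟨x₁, hx₁fix, hx₁⟩ := hnorm m n hm hn (y' : P) y'.2
      -- `x := u • x₁`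
      have hxfix : (φ ^ (m * n)) (u • x₁) = u • x₁ := by rw [map_nsmul, hx₁fix]
      have hxprim : u • x₁ ∈ v27aPrim P l := by
        refine ⟨E, ?_⟩
        rw [← mul_smul, hNu]
        have h0 : N • (⟨x₁, hx₁fix⟩ : ↥(v27gFix φ (m * n))) = 0 := card_nsmul_eq_zero'
        have := congrArg (fun z : ↥(v27gFix φ (m * n)) => (z : P)) h0
        simpa [AddSubgroup.coe_nsmul] using this
      refine ⟨⟨u • x₁, hxprim⟩, Subtype.ext ?_, Subtype.ext ?_⟩
      · rw [v27a_res_pow_apply]
        exact hxfix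
      · rw [v27a_res_norm_apply]
        show v27gNorm φ m n (u • x₁) = (y : P)
        rw [map_nsmul, hx₁, hy'P])
    k
  rw [← key]
  refine Nat.card_congr
    { toFun := fun x => ⟨⟨x.1, k, x.2⟩, Subtype.ext (by rw [AddSubgroup.coe_nsmul]; exact x.2)⟩
      invFun := fun y => ⟨y.1.1, by
        have h0 : (l ^ k) • (y.1 : ↥(v27aPrim P l)) = 0 := y.2
        have := congrArg Subtype.val h0
        rw [AddSubgroup.coe_nsmul] at this
        exact this⟩
      left_inv := fun x => rfl
      right_inv := fun y => rfl }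

end Main

/-- **THE ABSTRACT PART A** : `P` an abelian group, `φ` an endomorphism, every element fixed by some
`φ^[m]`, the levels `P_m` (fixed points of `φ^[m]`) finite of order `|det (1 - M ^ m)|`, `l ∤ det M`,
norms `∑_{i < n} φ^[m i] : P_{m n} → P_m` onto.  Then `|P[l ^ k]| = l ^ (d k)`, `d` the size of `M`. -/
theorem v27a_card_torsion {P : Type*} [AddCommGroup P] (l : ℕ) [Fact l.Prime] (φ : P →+ P)
    {ι : Type*} [Fintype ι] [DecidableEq ι] (M : Matrix ι ι ℤ) (hdet : ¬ (l : ℤ) ∣ M.det)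
    (hfix : ∀ x : P, ∃ m : ℕ, 0 < m ∧ (⇑φ)^[m] x = x)
    (hfin : ∀ m : ℕ, 0 < m → Finite {x : P // (⇑φ)^[m] x = x})
    (hcard : ∀ m : ℕ, 0 < m → (Nat.card {x : P // (⇑φ)^[m] x = x} : ℤ) = |v27lte_h M m|)
    (hnorm : ∀ m n : ℕ, 0 < m → 0 < n → ∀ y : P, (⇑φ)^[m] y = y →
      ∃ x : P, (⇑φ)^[m * n] x = x ∧ ∑ i ∈ Finset.range n, (⇑φ)^[m * i] x = y)
    (k : ℕ) : Nat.card {x : P // (l ^ k) • x = 0} = l ^ (Fintype.card ι * k) := by
  let ψ : AddMonoid.End P := φ
  have hpow : ∀ (m : ℕ) (x : P), (ψ ^ m) x = (⇑φ)^[m] x := by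
    intro m x
    rw [AddMonoid.End.coe_pow]
    rfl
  have hEq : ∀ m : ℕ, ↥(v27gFix ψ m) ≃ {x : P // (⇑φ)^[m] x = x} := fun m =>
    Equiv.subtypeEquivRight (fun x => by
      show (ψ ^ m) x = x ↔ _
      rw [hpow])
  have h := v27a_card_torsion_end l ψ M hdet
    (fun x => by
      obtain ⟨m, hm, hx⟩ := hfix x
      exact ⟨m, hm, (hpow m x).trans hx⟩)
    (fun m hm => by
      haveI := hfin m hm
      exact Finite.of_equiv _ (hEq m).symm)
    (fun m hm => by
      rw [← hcard m hm, Nat.card_congr (hEq m)])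
    (fun m n hm hn y hy => by
      obtain ⟨x, hx, hxy⟩ := hnorm m n hm hn y ((hpow m y).symm.trans hy)
      refine ⟨x, (hpow _ x).trans hx, ?_⟩
      rw [v27g_norm_apply, ← hxy]
      exact Finset.sum_congr rfl (fun i _ => hpow _ x))
    k
  rw [← h]
  exact Nat.card_congr (Equiv.subtypeEquivRight (fun x => Iff.rfl))

end Fermat.Agent.V
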