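/-
Program V (S27), leaf ZB: base change of the zeta function in logarithmic-derivative form and
the bridge to the class-number sequence `h_m = det (1 - M ^ m)` of `V/LTE.lean`.
Everything happens in `ℤ⟦X⟧`: no complex numbers, no roots of unity, no eigenvalues.
-/
import Mathlib
import Fermat.Agent.V.LTE

set_option autoImplicit false

open Finset Matrix Polynomial PowerSeries

namespace Fermat.Agent.V

section TraceLog

variable {R : Type*} [CommRing R] {n : Type*} [Fintype n] [DecidableEq n]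

/-- The matrix `Σ_r X^r M^r` over `R⟦X⟧`. -/
noncomputable def v27zb_geom (M : Matrix n n R) : Matrix n n R⟦X⟧ :=
  Matrix.of fun i j => PowerSeries.mk fun r => (M ^ r) i j

/-- `(1 - X M) * Σ_r X^r M^r = 1`. -/
theorem v27zb_one_sub_mul_geom (M : Matrix n n R) :
    (1 - (PowerSeries.X : R⟦X⟧) • M.map (PowerSeries.C : R →+* R⟦X⟧)) * v27zb_geom M = 1 := by
  ext i j d
  rw [Matrix.sub_mul, Matrix.one_mul, Matrix.sub_apply, map_sub]
  have h1 : PowerSeries.coeff d (v27zb_geom M i j) = (M ^ d) i j := by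
    simp [v27zb_geom]
  have h2 : PowerSeries.coeff d
      (((PowerSeries.X : R⟦X⟧) • M.map (PowerSeries.C : R →+* R⟦X⟧) * v27zb_geom M) i j)
      = if d = 0 then 0 else (M ^ d) i j := by
    rw [Matrix.smul_mul, Matrix.smul_apply, smul_eq_mul, Matrix.mul_apply]
    rcases d with _ | d
    · simp
    · rw [PowerSeries.coeff_succ_X_mul, map_sum]
      simp only [Nat.succ_ne_zero, if_false, Matrix.map_apply, PowerSeries.coeff_C_mul]
      rw [pow_succ', Matrix.mul_apply]
      refine Finset.sum_congr rfl fun k _ => ?_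
      simp [v27zb_geom]
  rw [h1, h2, Matrix.one_apply]
  rcases d with _ | d
  · by_cases hij : i = j
    · subst hij; simp
    · simp [hij, Matrix.one_apply_ne hij]
  · by_cases hij : i = j
    · subst hij; simp
    · simp [hij]

/-- `tr ((Σ_r X^r M^r) * M) = Σ_r tr (M^(r+1)) X^r`. -/
theorem v27zb_trace_geom_mul (M : Matrix n n R) :
    Matrix.trace (v27zb_geom M * M.map (PowerSeries.C : R →+* R⟦X⟧))
      = PowerSeries.mk fun r => Matrix.trace (M ^ (r + 1)) := by
  ext d
  rw [Matrix.trace, map_sum, PowerSeries.coeff_mk, Matrix.trace]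
  refine Finset.sum_congr rfl fun i _ => ?_
  rw [Matrix.diag_apply, Matrix.diag_apply, Matrix.mul_apply, map_sum, pow_succ, Matrix.mul_apply]
  refine Finset.sum_congr rfl fun k _ => ?_
  simp [v27zb_geom, mul_comm]

/-- The Taylor shift `R[X] → R⟦X⟧[Y]`, `X ↦ Y + X`. -/
noncomputable def v27zb_shift : R[X] →+* (R⟦X⟧)[X] :=
  ((Polynomial.taylorAlgHom (PowerSeries.X : R⟦X⟧) : (R⟦X⟧)[X] →ₐ[R⟦X⟧] (R⟦X⟧)[X]) :
      (R⟦X⟧)[X] →+* (R⟦X⟧)[X]).comp
    (Polynomial.mapRingHom (PowerSeries.C : R →+* R⟦X⟧))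

theorem v27zb_shift_apply (f : R[X]) :
    v27zb_shift f = Polynomial.taylor (PowerSeries.X : R⟦X⟧)
      (f.map (PowerSeries.C : R →+* R⟦X⟧)) := by
  simp [v27zb_shift, Polynomial.taylorAlgHom_apply]

theorem v27zb_shift_coeff_one (f : R[X]) :
    (v27zb_shift f).coeff 1 = ((Polynomial.derivative f : R[X]) : R⟦X⟧) := by
  rw [v27zb_shift_apply, Polynomial.taylor_coeff_one, Polynomial.derivative_map,
    Polynomial.eval_map, Polynomial.eval₂_C_X_eq_coe]

theorem v27zb_shift_X : v27zb_shift (Polynomial.X : R[X])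
    = Polynomial.X + Polynomial.C (PowerSeries.X : R⟦X⟧) := by
  rw [v27zb_shift_apply, Polynomial.map_X, Polynomial.taylor_X]

theorem v27zb_shift_C (r : R) : v27zb_shift (Polynomial.C r)
    = Polynomial.C (PowerSeries.C r : R⟦X⟧) := by
  rw [v27zb_shift_apply, Polynomial.map_C, Polynomial.taylor_C]

/-- `det (1 - X M)` over `R⟦X⟧` is the reverse characteristic polynomial, as a power series. -/
theorem v27zb_det_one_sub (M : Matrix n n R) :
    (1 - (PowerSeries.X : R⟦X⟧) • M.map (PowerSeries.C : R →+* R⟦X⟧)).det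
      = ((M.charpolyRev : R[X]) : R⟦X⟧) := by
  have h := RingHom.map_det (Polynomial.coeToPowerSeries.ringHom (R := R))
    (1 - (Polynomial.X : R[X]) • M.map Polynomial.C)
  rw [Polynomial.coeToPowerSeries.ringHom_apply] at h
  rw [Matrix.charpolyRev, h]
  congr 1
  ext i j : 1
  simp only [RingHom.mapMatrix_apply, Matrix.map_apply, Matrix.sub_apply, Matrix.smul_apply,
    smul_eq_mul, Polynomial.coeToPowerSeries.ringHom_apply, Polynomial.coe_sub,
    Polynomial.coe_mul, Polynomial.coe_X, Polynomial.coe_C]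
  by_cases hij : i = j
  · subst hij; simp
  · simp [Matrix.one_apply_ne hij]

/-- **`log det = tr log`**: `P' = -(Σ_r tr (M^(r+1)) X^r) * P` for `P = det (1 - X M)`,
for any square matrix over any commutative ring. -/
theorem v27zb_trace_log (M : Matrix n n R) :
    ((Polynomial.derivative M.charpolyRev : R[X]) : R⟦X⟧)
      = -(PowerSeries.mk fun r => Matrix.trace (M ^ (r + 1))) * ((M.charpolyRev : R[X]) : R⟦X⟧) := by
  set Mps : Matrix n n R⟦X⟧ := M.map (PowerSeries.C : R →+* R⟦X⟧) with hMps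
  set A : Matrix n n R⟦X⟧ := 1 - (PowerSeries.X : R⟦X⟧) • Mps with hA
  set B : Matrix n n R⟦X⟧ := v27zb_geom M with hB
  set N : Matrix n n R⟦X⟧ := -(B * Mps) with hN
  have hAB : A * B = 1 := v27zb_one_sub_mul_geom M
  have hAN : A * N = -Mps := by
    rw [hN, Matrix.mul_neg, ← Matrix.mul_assoc, hAB, Matrix.one_mul]
  -- the factorisation over `R⟦X⟧[Y]`
  have hfac : v27zb_shift.mapMatrix (1 - (Polynomial.X : R[X]) • M.map Polynomial.C)
      = A.map Polynomial.C * (1 + (Polynomial.X : (R⟦X⟧)[X]) • N.map Polynomial.C) := by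
    have h1 : A.map (Polynomial.C : R⟦X⟧ →+* (R⟦X⟧)[X]) * N.map Polynomial.C
        = (A * N).map (Polynomial.C : R⟦X⟧ →+* (R⟦X⟧)[X]) := (Matrix.map_mul).symm
    rw [Matrix.mul_add, Matrix.mul_one, Matrix.mul_smul, h1, hAN]
    ext i j : 1
    simp only [RingHom.mapMatrix_apply, Matrix.map_apply, Matrix.sub_apply, Matrix.smul_apply,
      smul_eq_mul, Matrix.add_apply, Matrix.neg_apply, map_sub, map_mul, v27zb_shift_X,
      v27zb_shift_C, hA, hMps, map_neg]
    by_cases hij : i = j
    · subst hij; simp; ring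
    · simp [Matrix.one_apply_ne hij]; ring
  have hdet : v27zb_shift M.charpolyRev
      = Polynomial.C A.det * (1 + (Polynomial.X : (R⟦X⟧)[X]) • N.map Polynomial.C).det := by
    rw [Matrix.charpolyRev, RingHom.map_det, hfac, Matrix.det_mul]
    congr 1
    exact (RingHom.map_det (Polynomial.C : R⟦X⟧ →+* (R⟦X⟧)[X]) A).symm
  have hc1 := congrArg (fun f => Polynomial.coeff f 1) hdet
  simp only [v27zb_shift_coeff_one, Polynomial.coeff_C_mul,
    Matrix.coeff_det_one_add_X_smul_one] at hc1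
  rw [hc1, hA, hMps, v27zb_det_one_sub, hN, Matrix.trace_neg, hB, hMps, v27zb_trace_geom_mul]
  ring

end TraceLog

section LogDer

/-- `F' = S * F` in `ℤ⟦X⟧`. -/
def v27zb_LD (F S : ℤ⟦X⟧) : Prop := d⁄dX ℤ F = S * F

theorem v27zb_LD.mul {F G S T : ℤ⟦X⟧} (hF : v27zb_LD F S) (hG : v27zb_LD G T) :
    v27zb_LD (F * G) (S + T) := by
  unfold v27zb_LD at *
  rw [Derivation.leibniz, hF, hG, smul_eq_mul, smul_eq_mul]
  ring

/-- Cancellation of a factor. -/
theorem v27zb_LD.of_mul {F G S T : ℤ⟦X⟧} (hFG : v27zb_LD (F * G) (S + T)) (hG : v27zb_LD G T)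
    (hG0 : G ≠ 0) : v27zb_LD F S := by
  unfold v27zb_LD at *
  rw [Derivation.leibniz, hG, smul_eq_mul, smul_eq_mul] at hFG
  have : G * (d⁄dX ℤ F) = G * (S * F) := by linear_combination hFG
  exact mul_left_cancel₀ hG0 this

/-- The logarithmic derivative is determined by the series. -/
theorem v27zb_LD.unique_right {F S S' : ℤ⟦X⟧} (h : v27zb_LD F S) (h' : v27zb_LD F S')
    (hF0 : F ≠ 0) : S = S' := by
  unfold v27zb_LD at *
  exact mul_right_cancel₀ hF0 (h.symm.trans h')

theorem v27zb_LD.coeff {F S : ℤ⟦X⟧} (h : v27zb_LD F S) (d : ℕ) :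
    PowerSeries.coeff (d + 1) F * ((d : ℤ) + 1)
      = ∑ p ∈ Finset.HasAntidiagonal.antidiagonal d, PowerSeries.coeff p.1 S * PowerSeries.coeff p.2 F := by
  have := congrArg (PowerSeries.coeff d) h
  rwa [PowerSeries.coeff_derivative, PowerSeries.coeff_mul] at this

/-- The series is determined by its logarithmic derivative and its constant coefficient. -/
theorem v27zb_LD.unique_left {F G S : ℤ⟦X⟧} (hF : v27zb_LD F S) (hG : v27zb_LD G S)
    (h0 : PowerSeries.constantCoeff F = PowerSeries.constantCoeff G) : F = G := by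
  ext d
  induction d using Nat.strong_induction_on with
  | _ d ih =>
    rcases d with _ | d
    · simpa using h0
    · have h1 := v27zb_LD.coeff hF d
      have h2 := v27zb_LD.coeff hG d
      have h3 : ∑ p ∈ Finset.HasAntidiagonal.antidiagonal d, PowerSeries.coeff p.1 S * PowerSeries.coeff p.2 F
          = ∑ p ∈ Finset.HasAntidiagonal.antidiagonal d, PowerSeries.coeff p.1 S * PowerSeries.coeff p.2 G := by
        refine Finset.sum_congr rfl fun p hp => ?_
        have hp' : p.1 + p.2 = d := Finset.HasAntidiagonal.mem_antidiagonal.mp hp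
        rw [ih p.2 (by omega)]
      rw [h3, ← h2] at h1
      have hd : ((d : ℤ) + 1) ≠ 0 := by positivity
      exact mul_right_cancel₀ hd h1

/-- `(1 - a X)' = -(Σ_r a^(r+1) X^r) * (1 - a X)`. -/
theorem v27zb_LD_one_sub (a : ℤ) :
    v27zb_LD (1 - PowerSeries.C a * PowerSeries.X) (-(PowerSeries.mk fun r => a ^ (r + 1))) := by
  unfold v27zb_LD
  have hd : d⁄dX ℤ (1 - PowerSeries.C a * PowerSeries.X) = -PowerSeries.C a := by
    rw [map_sub, Derivation.leibniz, PowerSeries.derivative_C, PowerSeries.derivative_X,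
      PowerSeries.derivative_one]
    simp
  rw [hd]
  ext d
  rw [neg_mul, map_neg, map_neg, mul_sub, mul_one, map_sub, PowerSeries.coeff_mk]
  rcases d with _ | d
  · simp
  · rw [← mul_assoc, PowerSeries.coeff_succ_mul_X, PowerSeries.coeff_mul_C, PowerSeries.coeff_mk,
      PowerSeries.coeff_C]
    simp [pow_succ]

end LogDer

section Companion

/-- A monic integer polynomial is the characteristic polynomial of an integer matrix
(multiplication by the root on `ℤ[x]/(g)` in the power basis). -/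
theorem v27zb_exists_charpoly (g : ℤ[X]) (hg : g.Monic) (d : ℕ) (hd : g.natDegree = d) :
    ∃ M : Matrix (Fin d) (Fin d) ℤ, M.charpoly = g := by
  subst hd
  set pb := AdjoinRoot.powerBasis' hg with hpb
  set M₀ : Matrix (Fin pb.dim) (Fin pb.dim) ℤ :=
    Algebra.leftMulMatrix pb.basis (AdjoinRoot.root g) with hM₀
  have hdim : pb.dim = g.natDegree := rfl
  have hχ : M₀.charpoly = g := by
    have hmon : M₀.charpoly.Monic := Matrix.charpoly_monic _
    have hdeg : M₀.charpoly.natDegree = g.natDegree := by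
      rw [Matrix.charpoly_natDegree_eq_dim, Fintype.card_fin, hdim]
    have hzero : Polynomial.aeval (AdjoinRoot.root g) M₀.charpoly = 0 := by
      apply Algebra.leftMulMatrix_injective pb.basis
      rw [← Polynomial.aeval_algHom_apply, map_zero]
      exact Matrix.aeval_self_charpoly M₀
    rw [AdjoinRoot.aeval_eq, AdjoinRoot.mk_eq_zero] at hzero
    exact Polynomial.eq_of_monic_of_dvd_of_natDegree_le hg hmon hzero hdeg.le
  refine ⟨Matrix.reindex (finCongr hdim) (finCongr hdim) M₀, ?_⟩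
  rw [Matrix.charpoly_reindex, hχ]

/-- For `P ∈ ℤ[X]` with `P(0) = 1` of degree `d` there is an integer `d × d` matrix `M` with
`det (1 - X M) = P` and `det M = (-1)^d * leadingCoeff P`. -/
theorem v27zb_exists_charpolyRev (P : ℤ[X]) (h0 : P.coeff 0 = 1) (d : ℕ) (hd : P.natDegree = d) :
    ∃ M : Matrix (Fin d) (Fin d) ℤ, M.charpolyRev = P ∧ M.det = (-1) ^ d * P.leadingCoeff := by
  have htr : P.natTrailingDegree = 0 :=
    Polynomial.natTrailingDegree_eq_zero_of_constantCoeff_ne_zero
      (by rw [Polynomial.constantCoeff_apply, h0]; exact one_ne_zero)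
  have hdeg : P.reverse.natDegree = d := by rw [Polynomial.reverse_natDegree, htr, hd, Nat.sub_zero]
  have hmon : P.reverse.Monic := by
    rw [Polynomial.Monic, Polynomial.reverse_leadingCoeff, Polynomial.trailingCoeff, htr, h0]
  obtain ⟨M, hM⟩ := v27zb_exists_charpoly P.reverse hmon d hdeg
  refine ⟨M, ?_, ?_⟩
  · rw [← Matrix.reverse_charpoly, hM]
    rw [Polynomial.reverse, hdeg, Polynomial.reverse, hd, Polynomial.reflect_reflect]
  · rw [Matrix.det_eq_sign_charpoly_coeff, hM, Polynomial.coeff_zero_reverse, Fintype.card_fin]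

end Companion

section Main

/-- `det (1 - X N)` evaluated at `1` is `det (1 - N)`. -/
theorem v27zb_eval_one_charpolyRev {n : Type*} [Fintype n] [DecidableEq n] (N : Matrix n n ℤ) :
    N.charpolyRev.eval 1 = (1 - N).det := by
  have h := RingHom.map_det (Polynomial.evalRingHom (1 : ℤ))
    (1 - (Polynomial.X : ℤ[X]) • N.map Polynomial.C)
  rw [Polynomial.coe_evalRingHom] at h
  rw [Matrix.charpolyRev, h]
  congr 1
  ext i j : 1
  simp only [RingHom.mapMatrix_apply, Matrix.map_apply, Matrix.sub_apply, Matrix.smul_apply,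
    smul_eq_mul, Polynomial.coe_evalRingHom, Polynomial.eval_sub, Polynomial.eval_mul,
    Polynomial.eval_X, Polynomial.eval_C, one_mul]
  by_cases hij : i = j
  · subst hij; simp
  · simp [Matrix.one_apply_ne hij]

/-- The reverse characteristic polynomial, as a power series, satisfies the trace ODE. -/
theorem v27zb_LD_charpolyRev {n : Type*} [Fintype n] [DecidableEq n] (N : Matrix n n ℤ) :
    v27zb_LD ((N.charpolyRev : ℤ[X]) : ℤ⟦X⟧)
      (-(PowerSeries.mk fun r => Matrix.trace (N ^ (r + 1)))) := by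
  unfold v27zb_LD
  rw [PowerSeries.derivative_coe, v27zb_trace_log]

/-- The generating series of a sequence satisfying the log-derivative recursion. -/
theorem v27zb_LD_of_rec (a s : ℕ → ℕ)
    (hrec : ∀ d, d * a d = ∑ i ∈ Finset.range d, s (i + 1) * a (d - (i + 1))) :
    v27zb_LD (PowerSeries.mk fun d => (a d : ℤ)) (PowerSeries.mk fun r => (s (r + 1) : ℤ)) := by
  unfold v27zb_LD
  ext d
  rw [PowerSeries.coeff_derivative, PowerSeries.coeff_mul, PowerSeries.coeff_mk,
    Finset.Nat.sum_antidiagonal_eq_sum_range_succ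
      (fun i j => PowerSeries.coeff i (PowerSeries.mk fun r => (s (r + 1) : ℤ))
        * PowerSeries.coeff j (PowerSeries.mk fun d => (a d : ℤ)))]
  have h := hrec (d + 1)
  have h' : ((d + 1 : ℕ) : ℤ) * (a (d + 1) : ℤ)
      = ∑ i ∈ Finset.range (d + 1), (s (i + 1) : ℤ) * (a (d + 1 - (i + 1)) : ℤ) := by
    exact_mod_cast h
  rw [mul_comm]
  push_cast at h'
  rw [h']
  refine Finset.sum_congr rfl fun i _ => ?_
  simp only [PowerSeries.coeff_mk]

/-- **Zeta base change and the bridge to `det (1 - M ^ m)`.** -/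
theorem v27zb_main (q g : ℕ) (N : ℕ → ℕ) (A : ℕ → ℕ → ℕ) (P : ℕ → Polynomial ℤ)
    (hA0 : ∀ m, 0 < m → A m 0 = 1)
    (hrec : ∀ m, 0 < m → ∀ d,
      d * A m d = ∑ i ∈ Finset.range d, N (m * (i + 1)) * A m (d - (i + 1)))
    (hP : ∀ m, 0 < m →
      ((1 - PowerSeries.X) * (1 - ((q : ℤ) ^ m) • PowerSeries.X)
        * PowerSeries.mk (fun d => (A m d : ℤ)) : PowerSeries ℤ) = ((P m : Polynomial ℤ) : PowerSeries ℤ))
    (hdeg : (P 1).natDegree = 2 * g) (h0 : (P 1).coeff 0 = 1)
    (hlc : (P 1).leadingCoeff = (q : ℤ) ^ g) :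
    ∃ M : Matrix (Fin (2 * g)) (Fin (2 * g)) ℤ, M.det = (q : ℤ) ^ g ∧
      ∀ m, 0 < m → (P m).eval 1 = v27lte_h M m := by
  obtain ⟨M, hMP, hMdet⟩ := v27zb_exists_charpolyRev (P 1) h0 (2 * g) hdeg
  refine ⟨M, ?_, ?_⟩
  · rw [hMdet, hlc, pow_mul]; simp
  -- the log-derivative of the prefactor `(1 - X)(1 - q^m X)`
  have hpre : ∀ m : ℕ, v27zb_LD ((1 - PowerSeries.X) * (1 - ((q : ℤ) ^ m) • PowerSeries.X))
      (-(PowerSeries.mk fun _ : ℕ => (1 : ℤ))
        + -(PowerSeries.mk fun r => ((q : ℤ) ^ m) ^ (r + 1))) := by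
    intro m
    have h1 := v27zb_LD_one_sub 1
    have h2 := v27zb_LD_one_sub ((q : ℤ) ^ m)
    simp only [map_one, one_mul, one_pow] at h1
    have e : (1 - ((q : ℤ) ^ m) • (PowerSeries.X : ℤ⟦X⟧))
        = 1 - PowerSeries.C ((q : ℤ) ^ m) * PowerSeries.X := by
      rw [zsmul_eq_mul]
      congr 2
    rw [e]
    exact h1.mul h2
  -- the log-derivative of `P m`
  have hLDP : ∀ m, 0 < m → v27zb_LD ((P m : Polynomial ℤ) : PowerSeries ℤ)
      ((-(PowerSeries.mk fun _ : ℕ => (1 : ℤ))
        + -(PowerSeries.mk fun r => ((q : ℤ) ^ m) ^ (r + 1)))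
        + PowerSeries.mk fun r => (N (m * (r + 1)) : ℤ)) := by
    intro m hm
    rw [← hP m hm]
    exact (hpre m).mul (v27zb_LD_of_rec (A m) (fun i => N (m * i)) (hrec m hm))
  have hP1ne : ((P 1 : Polynomial ℤ) : PowerSeries ℤ) ≠ 0 := by
    intro h
    have := congrArg (PowerSeries.coeff 0) h
    rw [Polynomial.coeff_coe, h0] at this
    simp at this
  -- level one: the point counts
  have hN : ∀ r : ℕ, (N (r + 1) : ℤ) = 1 + (q : ℤ) ^ (r + 1) - Matrix.trace (M ^ (r + 1)) := by
    intro r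
    have h1 := hLDP 1 Nat.one_pos
    have h2 := v27zb_LD_charpolyRev M
    rw [hMP] at h2
    have h3 := v27zb_LD.unique_right h1 h2 hP1ne
    have h4 := congrArg (PowerSeries.coeff r) h3
    simp only [map_add, map_neg, PowerSeries.coeff_mk, pow_one, one_mul] at h4
    linarith
  intro m hm
  -- level m
  have h1 := hLDP m hm
  have h2 := v27zb_LD_charpolyRev (M ^ m)
  have hS : ((-(PowerSeries.mk fun _ : ℕ => (1 : ℤ))
        + -(PowerSeries.mk fun r => ((q : ℤ) ^ m) ^ (r + 1)))
        + PowerSeries.mk fun r => (N (m * (r + 1)) : ℤ))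
      = -(PowerSeries.mk fun r => Matrix.trace ((M ^ m) ^ (r + 1))) := by
    ext r
    simp only [map_add, map_neg, PowerSeries.coeff_mk]
    obtain ⟨k, hk⟩ : ∃ k, m * (r + 1) = k + 1 :=
      ⟨m * (r + 1) - 1, by have : 0 < m * (r + 1) := Nat.mul_pos hm (Nat.succ_pos r); omega⟩
    rw [hk, hN k, ← hk, ← pow_mul, ← pow_mul]
    ring
  rw [hS] at h1
  have hc : PowerSeries.constantCoeff ((P m : Polynomial ℤ) : PowerSeries ℤ)
      = PowerSeries.constantCoeff (((M ^ m).charpolyRev : Polynomial ℤ) : PowerSeries ℤ) := by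
    rw [← hP m hm]
    simp only [map_mul, map_sub, map_one, PowerSeries.constantCoeff_X, sub_zero, one_mul]
    rw [← PowerSeries.coeff_zero_eq_constantCoeff_apply, ← PowerSeries.coeff_zero_eq_constantCoeff_apply,
      ← PowerSeries.coeff_zero_eq_constantCoeff_apply, PowerSeries.coeff_mk, Polynomial.coeff_coe,
      Polynomial.coeff_zero_eq_eval_zero, Matrix.eval_charpolyRev, hA0 m hm]
    simp
  have heq := v27zb_LD.unique_left h1 h2 hc
  have heq' : P m = (M ^ m).charpolyRev := Polynomial.coe_injective ℤ heq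
  rw [heq', v27zb_eval_one_charpolyRev, v27lte_h]

end Main

end Fermat.Agent.V
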