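import Fermat.Agent.V.B.Final
import Fermat.Agent.V.FO.Formulas
import Fermat.Agent.V.Sem.Main
import Fermat.Agent.V.Pres.InstFrac
import Fermat.Agent.V.Pres.OfWeierMain
import Fermat.Agent.V.Coord.TableW
import Fermat.Agent.V.A.Main

/-!
# Program V (S27): independent assembly of the final glue (plug test, helper19)

`v27plug19` is literally the frozen S27 statement, assembled from the owners' leaves:
helper22 `v27ow_exists` (char-0 package) + `v27B_card_of_sem` (FINAL core), helper24 `v27ff_PhiU/L`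
(FO definability), helper5 `V27Presented.phiU_iff/phiL_iff` (SEM), helper17 `v27ifr_closed` +
`v27ifr_isDedekindDomain` (INST-p), helper4 `v27ctw*` (table <-> coefficients), helper2 `v27A_main`
(half A).  Spare for helper24's `V/B/Glue.lean`; same content, different names.
-/

set_option autoImplicit false
set_option linter.style.haveILetI false

namespace Fermat.Agent.V

open AlgebraicCurve AlgebraicCurve.Pic0 Fermat.Agent.V.RR

universe u v

theorem v27plug19 (K : Type u) (F : Type v) [Field K] [Field F] [Algebra K F] [IsAlgClosed K]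
    [CharZero K] [IsCurveOver K F] [Algebra.EssFiniteType K F]
    (ℓ : ℕ) [Fact ℓ.Prime] (k : ℕ) :
    Nat.card (Pic0.torsion K F (ℓ ^ k)) = ℓ ^ (2 * genusFF K F * k) := by
  obtain ⟨δ, T, P, hgen, -, hP3⟩ := v27ow_exists K F
  generalize hg : genusFF K F = g at hgen ⊢
  have R : V27RR K F g := hg ▸ v27x_rr
  have hdeg : ∀ v : Place K F, v.deg = 1 := IsCurveOver.forall_deg_eq_one_of_isAlgClosed
  obtain ⟨D, hD0, hD1, hD2, hD3⟩ : ∃ D : ℕ, 4 * δ.genus + δ.N + ∑ j, δ.d j ≤ D ∧ 2 * g + 1 ≤ D ∧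
      2 * g * (ℓ ^ k * (2 * g)) + 2 * g ≤ D ∧ 2 * g * (2 * g + 2 * g) + 2 * g ≤ D :=
    ⟨(4 * δ.genus + δ.N + ∑ j, δ.d j) + (2 * g + 1) + (2 * g * (ℓ ^ k * (2 * g)) + 2 * g) +
      (2 * g * (2 * g + 2 * g) + 2 * g), by omega, by omega, by omega, by omega⟩
  have hP3D : V27coP3 D T.c := hP3 D hD0
  haveI : IsDedekindDomain (V27pB T) := v27ifr_isDedekindDomain T D hP3D
  refine v27B_card_of_sem ℓ k g (v27ff_PhiU δ D (2 * g) (ℓ ^ k) (2 * g) (ℓ ^ (2 * g * k)))
    (v27ff_PhiL δ D (2 * g) (ℓ ^ k) (2 * g) (ℓ ^ (2 * g * k))) {ℓ} (by simp) ?_ ?_ ?_ ?_ ?_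
  · intro p _ hne Ft _ _ _ _
    exact v27A_main p ℓ hne k
  · intro x hx
    exact ⟨v27ctwCoeffs T, (P.phiU_iff hdeg R _ le_rfl le_rfl hD1 hD2 hD3 _ (v27ctw_tab_coeffs T)
      (v27ctw_isTable T) hP3D).mpr ⟨x, hx⟩⟩
  · intro x hx
    exact ⟨v27ctwCoeffs T, (P.phiL_iff hdeg R _ le_rfl le_rfl hD1 hD2 hD3 _ (v27ctw_tab_coeffs T)
      (v27ctw_isTable T) hP3D).mpr ⟨x, hx⟩⟩
  · intro p _ _ w hw
    have hT : V27coIsTable (v27coTab w) := hw.1
    have hP3' : V27coP3 D (v27ctwTable w hT).c := hw.2.1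
    obtain ⟨i1, i2, hg', R', ⟨P'⟩⟩ := v27ifr_closed (v27ctwTable w hT) D hP3'
    haveI := v27ifr_isDedekindDomain (v27ctwTable w hT) D hP3'
    refine ⟨FractionRing (V27pB (v27ctwTable w hT)), inferInstance, inferInstance, i1, i2,
      hg'.trans hgen, ?_⟩
    have hdeg' : ∀ v : Place (V27uFpBar.{u} p) (FractionRing (V27pB (v27ctwTable w hT))),
        v.deg = 1 := IsCurveOver.forall_deg_eq_one_of_isAlgClosed
    rw [hgen] at R'
    exact (P'.phiU_iff hdeg' R' _ le_rfl le_rfl hD1 hD2 hD3 w rfl hT hP3').mp hw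
  · intro p _ _ w hw
    have hT : V27coIsTable (v27coTab w) := hw.1
    have hP3' : V27coP3 D (v27ctwTable w hT).c := hw.2.1
    obtain ⟨i1, i2, hg', R', ⟨P'⟩⟩ := v27ifr_closed (v27ctwTable w hT) D hP3'
    haveI := v27ifr_isDedekindDomain (v27ctwTable w hT) D hP3'
    refine ⟨FractionRing (V27pB (v27ctwTable w hT)), inferInstance, inferInstance, i1, i2,
      hg'.trans hgen, ?_⟩
    have hdeg' : ∀ v : Place (V27uFpBar.{u} p) (FractionRing (V27pB (v27ctwTable w hT))),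
        v.deg = 1 := IsCurveOver.forall_deg_eq_one_of_isAlgClosed
    rw [hgen] at R'
    exact (P'.phiL_iff hdeg' R' _ le_rfl le_rfl hD1 hD2 hD3 w rfl hT hP3').mp hw

end Fermat.Agent.V
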