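import Mathlib

/-!
# Program V (S27), leaf A3: the zeta formalism as an abstract counting lemma

Input: a "class group" `Cl` with a degree homomorphism, a class of degree one, a finite degree-zero
part of order `h`, a Riemann–Roch function `ell` with canonical class `w`, the number `N c` of
effective divisors in each class (`N c * (q - 1) = q ^ ell c - 1`) and the number `A d` of effective
divisors of degree `d`.

Output: `(1 - X) (1 - q X) * Σ A_d X^d = P` for a polynomial `P ∈ ℤ[X]` of degree `2 g` with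
`P(0) = 1`, leading coefficient `q ^ g` and `P(1) = h`.
-/

set_option autoImplicit false
set_option linter.style.haveILetI false

noncomputable section

namespace Fermat.Agent.V

open Polynomial

section Fibre

variable {Cl : Type*} [AddCommGroup Cl] (deg : Cl →+ ℤ)

/-- the fibre of the degree map over `d`, as a torsor under the kernel. -/
def v27z_fibreEquiv (c₁ : Cl) (hc₁ : deg c₁ = 1) (d : ℤ) :
    deg.ker ≃ {c : Cl // deg c = d} where
  toFun k := ⟨(k : Cl) + d • c₁, by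
    have hk : deg (k : Cl) = 0 := k.2
    rw [map_add, map_zsmul, hc₁, hk]; simp⟩
  invFun c := ⟨c.1 - d • c₁, by
    show deg (c.1 - d • c₁) = 0
    rw [map_sub, map_zsmul, hc₁, c.2]; simp⟩
  left_inv k := by ext; simp
  right_inv c := by ext; simp

end Fibre

/-- the hypotheses of the zeta formalism (what Riemann–Roch over a finite field provides). -/
structure V27ZHyp {Cl : Type*} [AddCommGroup Cl] (deg : Cl →+ ℤ) (q g h : ℕ) (c₁ : Cl)
    (ell : Cl → ℕ) (w : Cl) (N : Cl → ℕ) (A : ℕ → ℕ) : Prop where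
  hq : 2 ≤ q
  hc₁ : deg c₁ = 1
  hfin : Finite deg.ker
  hh : Nat.card deg.ker = h
  hw : deg w = 2 * (g : ℤ) - 2
  hneg : ∀ c, deg c < 0 → ell c = 0
  h0 : ell 0 = 1
  h0' : ∀ c, deg c = 0 → c ≠ 0 → ell c = 0
  hRR : ∀ c, (ell c : ℤ) = deg c + 1 - g + ell (w - c)
  hN : ∀ c, N c * (q - 1) = q ^ ell c - 1
  hA : ∀ d : ℕ, A d = ∑ᶠ c : {c : Cl // deg c = (d : ℤ)}, N c.1

namespace V27ZHyp

variable {Cl : Type*} [AddCommGroup Cl] {deg : Cl →+ ℤ} {q g h : ℕ} {c₁ : Cl}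
  {ell : Cl → ℕ} {w : Cl} {N : Cl → ℕ} {A : ℕ → ℕ}

theorem fibre_finite (H : V27ZHyp deg q g h c₁ ell w N A) (d : ℤ) :
    Finite {c : Cl // deg c = d} :=
  haveI := H.hfin
  Finite.of_equiv _ (v27z_fibreEquiv deg c₁ H.hc₁ d)

theorem fibre_card (H : V27ZHyp deg q g h c₁ ell w N A) (d : ℤ) :
    Nat.card {c : Cl // deg c = d} = h := by
  rw [← H.hh]
  exact (Nat.card_congr (v27z_fibreEquiv deg c₁ H.hc₁ d)).symm

theorem hN_int (H : V27ZHyp deg q g h c₁ ell w N A) (c : Cl) :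
    (N c : ℤ) * ((q : ℤ) - 1) = (q : ℤ) ^ ell c - 1 := by
  have h1 := H.hN c
  have hq1 : 1 ≤ q := le_trans (by norm_num) H.hq
  have hq2 : 1 ≤ q ^ ell c := Nat.one_le_pow _ _ hq1
  have := congrArg (Nat.cast : ℕ → ℤ) h1
  rw [Nat.cast_mul, Nat.cast_sub hq1, Nat.cast_sub hq2] at this
  simpa using this

/-- `A d (q - 1)` as a sum over the fibre. -/
theorem A_mul (H : V27ZHyp deg q g h c₁ ell w N A) (d : ℕ)
    [Fintype {c : Cl // deg c = (d : ℤ)}] :
    (A d : ℤ) * ((q : ℤ) - 1) = ∑ c : {c : Cl // deg c = (d : ℤ)}, ((q : ℤ) ^ ell c.1 - 1) := by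
  rw [H.hA d, finsum_eq_sum_of_fintype, Nat.cast_sum, Finset.sum_mul]
  exact Finset.sum_congr rfl fun c _ => H.hN_int c.1

theorem ell_large (H : V27ZHyp deg q g h c₁ ell w N A) (c : Cl)
    (hc : 2 * (g : ℤ) - 1 ≤ deg c) : (ell c : ℤ) = deg c + 1 - g := by
  have h1 : ell (w - c) = 0 := H.hneg _ (by rw [map_sub, H.hw]; omega)
  rw [H.hRR c, h1]; simp

/-- the number of effective divisors of large degree. -/
theorem A_large (H : V27ZHyp deg q g h c₁ ell w N A) (d : ℕ) (hd : 2 * g ≤ d + 1) :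
    (A d : ℤ) * ((q : ℤ) - 1) = (h : ℤ) * ((q : ℤ) ^ (d + 1 - g) - 1) := by
  haveI := H.fibre_finite (d : ℤ)
  haveI := Fintype.ofFinite {c : Cl // deg c = (d : ℤ)}
  rw [H.A_mul d]
  have h1 : ∀ c : {c : Cl // deg c = (d : ℤ)}, ((q : ℤ) ^ ell c.1 - 1) =
      (q : ℤ) ^ (d + 1 - g) - 1 := by
    intro c
    have h2 := H.ell_large c.1 (by rw [c.2]; omega)
    rw [c.2] at h2
    have h3 : ell c.1 = d + 1 - g := by omega
    rw [h3]
  rw [Finset.sum_congr rfl fun c _ => h1 c, Finset.sum_const, Finset.card_univ,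
    ← Nat.card_eq_fintype_card, H.fibre_card, nsmul_eq_mul]

theorem N_zero (H : V27ZHyp deg q g h c₁ ell w N A) : N 0 = 1 := by
  have h1 := H.hN 0
  rw [H.h0, pow_one] at h1
  have hq := H.hq
  have : 0 < q - 1 := by omega
  exact Nat.eq_of_mul_eq_mul_right this (by rw [h1, one_mul])

theorem N_degZero (H : V27ZHyp deg q g h c₁ ell w N A) (c : Cl) (hc : deg c = 0) (hc0 : c ≠ 0) :
    N c = 0 := by
  have h1 := H.hN c
  rw [H.h0' c hc hc0, pow_zero, Nat.sub_self] at h1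
  have hq := H.hq
  have : q - 1 ≠ 0 := by omega
  exact (Nat.mul_eq_zero.1 h1).resolve_right this

theorem A_zero (H : V27ZHyp deg q g h c₁ ell w N A) : A 0 = 1 := by
  classical
  haveI := H.fibre_finite ((0 : ℕ) : ℤ)
  haveI := Fintype.ofFinite {c : Cl // deg c = ((0 : ℕ) : ℤ)}
  rw [H.hA 0, finsum_eq_sum_of_fintype]
  have hz : deg (0 : Cl) = ((0 : ℕ) : ℤ) := by simp
  rw [← Finset.add_sum_erase Finset.univ _ (Finset.mem_univ (⟨0, hz⟩ : {c : Cl // deg c = ((0 : ℕ) : ℤ)}))]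
  rw [Finset.sum_eq_zero, add_zero]
  · exact H.N_zero
  · intro c hc
    have hne : c ≠ ⟨0, hz⟩ := Finset.ne_of_mem_erase hc
    refine H.N_degZero c.1 (by simpa using c.2) fun h0 => hne (Subtype.ext h0)

/-- the number of effective divisors of degree `2 g - 2`. -/
theorem A_can (H : V27ZHyp deg q g h c₁ ell w N A) (hg : 1 ≤ g) :
    (A (2 * g - 2) : ℤ) * ((q : ℤ) - 1) =
      ((q : ℤ) ^ g - 1) + ((h : ℤ) - 1) * ((q : ℤ) ^ (g - 1) - 1) := by
  classical
  have hcast : ((2 * g - 2 : ℕ) : ℤ) = 2 * (g : ℤ) - 2 := by omega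
  haveI := H.fibre_finite ((2 * g - 2 : ℕ) : ℤ)
  haveI := Fintype.ofFinite {c : Cl // deg c = ((2 * g - 2 : ℕ) : ℤ)}
  rw [H.A_mul (2 * g - 2)]
  have hwm : deg w = ((2 * g - 2 : ℕ) : ℤ) := by rw [hcast]; exact H.hw
  rw [← Finset.add_sum_erase Finset.univ _
    (Finset.mem_univ (⟨w, hwm⟩ : {c : Cl // deg c = ((2 * g - 2 : ℕ) : ℤ)}))]
  have hw1 : ell w = g := by
    have h1 := H.hRR w
    rw [sub_self, H.h0, H.hw] at h1
    have : (ell w : ℤ) = g := by rw [h1]; push_cast; ring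
    exact_mod_cast this
  have hother : ∀ c ∈ Finset.univ.erase (⟨w, hwm⟩ : {c : Cl // deg c = ((2 * g - 2 : ℕ) : ℤ)}),
      ((q : ℤ) ^ ell c.1 - 1) = (q : ℤ) ^ (g - 1) - 1 := by
    intro c hc
    have hne : c ≠ ⟨w, hwm⟩ := Finset.ne_of_mem_erase hc
    have hd0 : deg (w - c.1) = 0 := by rw [map_sub, H.hw, c.2, hcast]; ring
    have hne0 : w - c.1 ≠ 0 := fun h0 => hne (Subtype.ext (sub_eq_zero.1 h0).symm)
    have h1 := H.hRR c.1
    have hc2 : deg c.1 = 2 * (g : ℤ) - 2 := by rw [c.2, hcast]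
    rw [H.h0' _ hd0 hne0, hc2] at h1
    have h2 : ell c.1 = g - 1 := by
      have : (ell c.1 : ℤ) = (g : ℤ) - 1 := by rw [h1]; push_cast; ring
      omega
    rw [h2]
  rw [Finset.sum_congr rfl hother, Finset.sum_const, Finset.card_erase_of_mem (Finset.mem_univ _),
    Finset.card_univ, ← Nat.card_eq_fintype_card, H.fibre_card, nsmul_eq_mul]
  have hh1 : 1 ≤ h := by
    rw [← H.hh]
    haveI := H.hfin
    exact Nat.one_le_iff_ne_zero.2 Nat.card_pos.ne'
  show (q : ℤ) ^ ell w - 1 + ((h - 1 : ℕ) : ℤ) * ((q : ℤ) ^ (g - 1) - 1) = _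
  rw [hw1, Nat.cast_sub hh1]
  simp

/-- genus zero forces class number one. -/
theorem h_eq_one_of_g_zero (H : V27ZHyp deg q g h c₁ ell w N A) (hg : g = 0) : h = 1 := by
  haveI := H.hfin
  rw [← H.hh]
  have hsub : Subsingleton deg.ker := by
    refine ⟨fun a b => ?_⟩
    have key : ∀ k : deg.ker, (k : Cl) = 0 := by
      intro k
      by_contra hk
      have hk0 : deg (k : Cl) = 0 := k.2
      have h1 := H.hRR (k : Cl)
      rw [H.h0' _ hk0 hk, hk0, hg] at h1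
      have : (0 : ℤ) ≤ (ell (w - (k : Cl)) : ℤ) := Int.natCast_nonneg _
      simp at h1
      omega
    exact Subtype.ext ((key a).trans (key b).symm)
  exact Nat.card_unique

end V27ZHyp

section PowerSeriesAux

open PowerSeries in
theorem v27z_coeff_zero_one_sub_smul_X_mul (r : ℤ) (f : PowerSeries ℤ) :
    PowerSeries.coeff 0 ((1 - r • (PowerSeries.X : PowerSeries ℤ)) * f) =
      PowerSeries.coeff 0 f := by
  rw [sub_mul, one_mul, smul_mul_assoc, map_sub, map_smul,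
    PowerSeries.coeff_zero_X_mul]
  simp

open PowerSeries in
theorem v27z_coeff_succ_one_sub_smul_X_mul (r : ℤ) (f : PowerSeries ℤ) (n : ℕ) :
    PowerSeries.coeff (n + 1) ((1 - r • (PowerSeries.X : PowerSeries ℤ)) * f) =
      PowerSeries.coeff (n + 1) f - r * PowerSeries.coeff n f := by
  rw [sub_mul, one_mul, smul_mul_assoc, map_sub, map_smul,
    PowerSeries.coeff_succ_X_mul]
  simp

end PowerSeriesAux

namespace V27ZHyp

variable {Cl : Type*} [AddCommGroup Cl] {deg : Cl →+ ℤ} {q g h : ℕ} {c₁ : Cl}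
  {ell : Cl → ℕ} {w : Cl} {N : Cl → ℕ} {A : ℕ → ℕ}

theorem q_sub_one_ne_zero (H : V27ZHyp deg q g h c₁ ell w N A) : (q : ℤ) - 1 ≠ 0 := by
  have := H.hq
  have : (2 : ℤ) ≤ q := by exact_mod_cast this
  omega

/-- `a_{n+1} - q a_n = h` for `n + 1 ≥ 2 g`. -/
theorem y_succ (H : V27ZHyp deg q g h c₁ ell w N A) (n : ℕ) (hn : 2 * g ≤ n + 1) :
    (A (n + 1) : ℤ) - (q : ℤ) * (A n : ℤ) = (h : ℤ) := by
  have h1 := H.A_large (n + 1) (by omega)
  have h2 := H.A_large n hn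
  have e : n + 1 + 1 - g = (n + 1 - g) + 1 := by omega
  rw [e, pow_succ] at h1
  have key : ((A (n + 1) : ℤ) - (q : ℤ) * (A n : ℤ)) * ((q : ℤ) - 1) = (h : ℤ) * ((q : ℤ) - 1) := by
    rw [sub_mul, h1, mul_assoc, h2]; ring
  exact mul_right_cancel₀ H.q_sub_one_ne_zero key

/-- `a_{2g-1} - q a_{2g-2} = h - q^g`. -/
theorem y_can (H : V27ZHyp deg q g h c₁ ell w N A) (hg : 1 ≤ g) :
    (A (2 * g - 2 + 1) : ℤ) - (q : ℤ) * (A (2 * g - 2) : ℤ) = (h : ℤ) - (q : ℤ) ^ g := by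
  have h1 := H.A_large (2 * g - 2 + 1) (by omega)
  have h2 := H.A_can hg
  have e : 2 * g - 2 + 1 + 1 - g = g := by omega
  rw [e] at h1
  have e2 : (q : ℤ) ^ g = (q : ℤ) ^ (g - 1) * q := by
    rw [← pow_succ]; congr 1; omega
  have key : ((A (2 * g - 2 + 1) : ℤ) - (q : ℤ) * (A (2 * g - 2) : ℤ)) * ((q : ℤ) - 1) =
      ((h : ℤ) - (q : ℤ) ^ g) * ((q : ℤ) - 1) := by
    rw [sub_mul, h1, mul_assoc, h2, e2]; ring
  exact mul_right_cancel₀ H.q_sub_one_ne_zero key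

end V27ZHyp

/-- the sequence `y_d = a_d - q a_{d-1}`. -/
def v27zY (q : ℕ) (A : ℕ → ℕ) : ℕ → ℤ
  | 0 => (A 0 : ℤ)
  | (n + 1) => (A (n + 1) : ℤ) - (q : ℤ) * (A n : ℤ)

/-- the sequence `w_d = y_d - y_{d-1}`. -/
def v27zW (q : ℕ) (A : ℕ → ℕ) : ℕ → ℤ
  | 0 => v27zY q A 0
  | (n + 1) => v27zY q A (n + 1) - v27zY q A n

theorem v27z_sum_W (q : ℕ) (A : ℕ → ℕ) (n : ℕ) :
    ∑ d ∈ Finset.range (n + 1), v27zW q A d = v27zY q A n := by
  induction n with
  | zero => simp [v27zW]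
  | succ n ih => rw [Finset.sum_range_succ, ih]; simp [v27zW]

theorem v27z_coeff_Y (q : ℕ) (A : ℕ → ℕ) (d : ℕ) :
    PowerSeries.coeff d ((1 - (q : ℤ) • (PowerSeries.X : PowerSeries ℤ)) *
      PowerSeries.mk (fun d => (A d : ℤ))) = v27zY q A d := by
  cases d with
  | zero => rw [v27z_coeff_zero_one_sub_smul_X_mul]; simp [v27zY]
  | succ n => rw [v27z_coeff_succ_one_sub_smul_X_mul]; simp [v27zY]

theorem v27z_coeff_W (q : ℕ) (A : ℕ → ℕ) (d : ℕ) :
    PowerSeries.coeff d ((1 - PowerSeries.X) * (1 - (q : ℤ) • (PowerSeries.X : PowerSeries ℤ)) *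
      PowerSeries.mk (fun d => (A d : ℤ))) = v27zW q A d := by
  have e : (1 - (PowerSeries.X : PowerSeries ℤ)) =
      1 - (1 : ℤ) • (PowerSeries.X : PowerSeries ℤ) := by rw [one_smul]
  rw [mul_assoc, e]
  cases d with
  | zero => rw [v27z_coeff_zero_one_sub_smul_X_mul, v27z_coeff_Y]; simp [v27zW]
  | succ n =>
    rw [v27z_coeff_succ_one_sub_smul_X_mul, v27z_coeff_Y, v27z_coeff_Y]; simp [v27zW]

namespace V27ZHyp

variable {Cl : Type*} [AddCommGroup Cl] {deg : Cl →+ ℤ} {q g h : ℕ} {c₁ : Cl}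
  {ell : Cl → ℕ} {w : Cl} {N : Cl → ℕ} {A : ℕ → ℕ}

theorem Y_large (H : V27ZHyp deg q g h c₁ ell w N A) (d : ℕ) (hd : 2 * g ≤ d) :
    v27zY q A d = (h : ℤ) := by
  cases d with
  | zero =>
    have hg : g = 0 := by omega
    simp only [v27zY]
    rw [H.A_zero, H.h_eq_one_of_g_zero hg]
  | succ n => exact H.y_succ n hd

theorem W_large (H : V27ZHyp deg q g h c₁ ell w N A) (d : ℕ) (hd : 2 * g + 1 ≤ d) :
    v27zW q A d = 0 := by
  cases d with
  | zero => omega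
  | succ n =>
    simp only [v27zW]
    rw [H.Y_large (n + 1) (by omega), H.Y_large n (by omega), sub_self]

theorem W_top (H : V27ZHyp deg q g h c₁ ell w N A) : v27zW q A (2 * g) = (q : ℤ) ^ g := by
  rcases Nat.eq_zero_or_pos g with hg | hg
  · subst hg
    simp only [v27zW, v27zY, pow_zero]
    rw [H.A_zero]; simp
  · have e : 2 * g = (2 * g - 2 + 1) + 1 := by omega
    have hY := H.Y_large (2 * g) le_rfl
    rw [e] at hY ⊢
    simp only [v27zW]
    rw [hY]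
    have := H.y_can hg
    simp only [v27zY]
    rw [this]; ring

theorem W_zero (H : V27ZHyp deg q g h c₁ ell w N A) : v27zW q A 0 = 1 := by
  simp only [v27zW, v27zY]
  rw [H.A_zero]; simp

end V27ZHyp

/-- **Leaf A3**: the zeta function is `P / ((1 - t)(1 - q t))` with `P` an integral polynomial of
degree `2 g`, `P(0) = 1`, leading coefficient `q ^ g`, `P(1) = h`. -/
theorem v27z_main {Cl : Type*} [AddCommGroup Cl] (deg : Cl →+ ℤ) (q g h : ℕ) (hq : 2 ≤ q)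
    (c₁ : Cl) (hc₁ : deg c₁ = 1)
    (hfin : Finite deg.ker) (hh : Nat.card deg.ker = h)
    (ell : Cl → ℕ) (w : Cl) (hw : deg w = 2 * (g : ℤ) - 2)
    (hneg : ∀ c, deg c < 0 → ell c = 0) (h0 : ell 0 = 1)
    (h0' : ∀ c, deg c = 0 → c ≠ 0 → ell c = 0)
    (hRR : ∀ c, (ell c : ℤ) = deg c + 1 - g + ell (w - c))
    (N : Cl → ℕ) (hN : ∀ c, N c * (q - 1) = q ^ ell c - 1)
    (A : ℕ → ℕ) (hA : ∀ d : ℕ, A d = ∑ᶠ c : {c : Cl // deg c = (d : ℤ)}, N c.1) :
    ∃ P : Polynomial ℤ, P.natDegree = 2 * g ∧ P.coeff 0 = 1 ∧ P.leadingCoeff = (q : ℤ) ^ g ∧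
      P.eval 1 = (h : ℤ) ∧
      ((1 - PowerSeries.X) * (1 - (q : ℤ) • PowerSeries.X) *
        PowerSeries.mk (fun d => (A d : ℤ)) : PowerSeries ℤ) = (P : PowerSeries ℤ) := by
  have H : V27ZHyp deg q g h c₁ ell w N A :=
    ⟨hq, hc₁, hfin, hh, hw, hneg, h0, h0', hRR, hN, hA⟩
  set Z : PowerSeries ℤ := (1 - PowerSeries.X) * (1 - (q : ℤ) • PowerSeries.X) *
    PowerSeries.mk (fun d => (A d : ℤ)) with hZ
  have hcoeff : ∀ d, PowerSeries.coeff d Z = v27zW q A d := fun d => v27z_coeff_W q A d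
  set P : Polynomial ℤ := PowerSeries.trunc (2 * g + 1) Z with hP
  have hPc : ∀ d, P.coeff d = if d < 2 * g + 1 then v27zW q A d else 0 := by
    intro d
    rw [hP, PowerSeries.coeff_trunc, hcoeff]
  have hdeg_lt : P.natDegree < 2 * g + 1 := PowerSeries.natDegree_trunc_lt Z (2 * g)
  have htop : P.coeff (2 * g) = (q : ℤ) ^ g := by
    rw [hPc, if_pos (by omega), H.W_top]
  have hqne : (q : ℤ) ^ g ≠ 0 := by
    have : (q : ℤ) ≠ 0 := by
      have := hq
      exact_mod_cast (by omega : q ≠ 0)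
    exact pow_ne_zero _ this
  have hnat : P.natDegree = 2 * g := by
    refine le_antisymm (by omega) ?_
    exact Polynomial.le_natDegree_of_ne_zero (by rw [htop]; exact hqne)
  refine ⟨P, hnat, ?_, ?_, ?_, ?_⟩
  · rw [hPc, if_pos (by omega), H.W_zero]
  · rw [Polynomial.leadingCoeff, hnat, htop]
  · rw [Polynomial.eval_eq_sum_range' hdeg_lt]
    have : ∀ d ∈ Finset.range (2 * g + 1), P.coeff d * 1 ^ d = v27zW q A d := by
      intro d hd
      rw [hPc, if_pos (Finset.mem_range.1 hd), one_pow, mul_one]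
    rw [Finset.sum_congr rfl this, v27z_sum_W, H.Y_large (2 * g) le_rfl]
  · ext d
    rw [Polynomial.coeff_coe, hPc, hcoeff]
    split_ifs with hd
    · rfl
    · exact H.W_large d (by omega)


end Fermat.Agent.V
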